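/-
Frames of a totally complex number field: translations, discreteness and balancing by units.
-/
import Mathlib.NumberTheory.NumberField.CanonicalEmbedding.ConvexBody
import Mathlib.NumberTheory.NumberField.Units.DirichletTheorem

set_option autoImplicit false

noncomputable section

open NumberField NumberField.InfinitePlace Module
open scoped nonZeroDivisors

namespace Fermat.Agent.LT.Reduction

variable {K : Type*} [Field K] [NumberField K] {ι : Type*} [Fintype ι]

/-- A choice of one complex embedding for each place of a totally complex field. -/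
structure IsFrame (emb : ι → (K →+* ℂ)) : Prop where
  bijective : Function.Bijective fun i => InfinitePlace.mk (emb i)
  isComplex : ∀ w : InfinitePlace K, w.IsComplex

variable {emb : ι → (K →+* ℂ)}

namespace IsFrame

variable (hF : IsFrame emb)

/-- The bijection between the index set and the places. -/
def placeEquiv : ι ≃ InfinitePlace K := Equiv.ofBijective _ hF.bijective

omit [NumberField K] [Fintype ι] in
theorem placeEquiv_apply (i : ι) : hF.placeEquiv i = InfinitePlace.mk (emb i) := rfl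

omit [NumberField K] [Fintype ι] in
theorem placeEquiv_value (i : ι) (x : K) : hF.placeEquiv i x = ‖emb i x‖ := rfl

omit [NumberField K] [Fintype ι] in
include hF in
theorem mult_eq_two (w : InfinitePlace K) : mult w = 2 := by
  rw [mult, if_neg]
  exact InfinitePlace.not_isReal_iff_isComplex.mpr (hF.isComplex w)

include hF in
theorem prod_norm_sq (x : K) : ∏ i, ‖emb i x‖ ^ 2 = |(Algebra.norm ℚ x : ℝ)| := by
  have h := InfinitePlace.prod_eq_abs_norm x
  rw [← hF.placeEquiv.prod_comp] at h
  rw [← Rat.cast_abs, ← h]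
  refine Finset.prod_congr rfl fun i _ => ?_
  rw [hF.mult_eq_two, hF.placeEquiv_value]

open Classical in
/-- The mixed space in the coordinates of the frame. -/
def toPi : mixedEmbedding.mixedSpace K ≃ₗ[ℝ] (ι → ℂ) :=
  haveI : IsEmpty {w : InfinitePlace K // w.IsReal} :=
    ⟨fun w => InfinitePlace.not_isReal_iff_isComplex.mpr (hF.isComplex w.1) w.2⟩
  let s : ι → (ℂ ≃ₗ[ℝ] ℂ) := fun i =>
    if (InfinitePlace.mk (emb i)).embedding = emb i then LinearEquiv.refl ℝ ℂ
    else Complex.conjLIE.toLinearEquiv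
  { toFun := fun x i => s i (x.2 ⟨hF.placeEquiv i, hF.isComplex _⟩)
    map_add' := fun x y => by ext i; simp
    map_smul' := fun r x => by
      ext i
      exact map_smul (s i) r _
    invFun := fun y => (0, fun w => (s (hF.placeEquiv.symm w.1)).symm (y (hF.placeEquiv.symm w.1)))
    left_inv := fun x => by
      refine Prod.ext (funext fun w => isEmptyElim w) (funext fun w => ?_)
      rw [LinearEquiv.symm_apply_eq]
      exact congrArg (fun z => s (hF.placeEquiv.symm w.1) z)
        (congrArg x.2 (Subtype.ext (hF.placeEquiv.apply_symm_apply w.1)))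
    right_inv := fun y => by
      ext i
      simp [LinearEquiv.apply_symm_apply] }

theorem toPi_mixedEmbedding (x : K) (i : ι) :
    hF.toPi (mixedEmbedding K x) i = emb i x := by
  classical
  show (if (InfinitePlace.mk (emb i)).embedding = emb i then LinearEquiv.refl ℝ ℂ
    else Complex.conjLIE.toLinearEquiv) ((hF.placeEquiv i).embedding x) = emb i x
  rw [hF.placeEquiv_apply]
  split_ifs with h
  · rw [h]; rfl
  · rw [(embedding_mk_eq (emb i)).resolve_left h]
    simp [ComplexEmbedding.conjugate_coe_eq]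

/-- The lattice basis of the integers in the coordinates of the frame. -/
def basis : Basis (Free.ChooseBasisIndex ℤ (𝓞 K)) ℝ (ι → ℂ) :=
  (mixedEmbedding.latticeBasis K).map hF.toPi

theorem basis_apply (j : Free.ChooseBasisIndex ℤ (𝓞 K)) (i : ι) :
    hF.basis j i = emb i (integralBasis K j) := by
  rw [basis, Basis.map_apply, mixedEmbedding.latticeBasis_apply, hF.toPi_mixedEmbedding]

theorem mem_span_basis {x : ι → ℂ} :
    x ∈ Submodule.span ℤ (Set.range hF.basis) ↔ ∃ a : 𝓞 K, x = fun i => emb i a := by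
  have hr : Set.range hF.basis =
      (hF.toPi.toLinearMap.restrictScalars ℤ) '' Set.range (mixedEmbedding.latticeBasis K) := by
    rw [← Set.range_comp]
    rfl
  rw [hr, Submodule.span_image, Submodule.mem_map]
  simp only [mixedEmbedding.mem_span_latticeBasis]
  constructor
  · rintro ⟨y, hy, rfl⟩
    simp only [mixedEmbedding.integerLattice, LinearMap.mem_range] at hy
    obtain ⟨a, rfl⟩ := hy
    exact ⟨a, funext fun i => hF.toPi_mixedEmbedding _ i⟩
  · rintro ⟨a, rfl⟩
    exact ⟨mixedEmbedding K a, ⟨a, rfl⟩, funext fun i => hF.toPi_mixedEmbedding _ i⟩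

include hF in
/-- Every point is congruent to a bounded one modulo the integers. -/
theorem exists_translate :
    ∃ R : ℝ, ∀ x : ι → ℂ, ∃ a : 𝓞 K, ∀ i, ‖x i + emb i a‖ ≤ R := by
  refine ⟨∑ j, ‖hF.basis j‖, fun x => ?_⟩
  obtain ⟨a, ha⟩ := hF.mem_span_basis.mp (ZSpan.floor hF.basis x).2
  refine ⟨-a, fun i => ?_⟩
  have h : (ZSpan.fract hF.basis x) i = x i + emb i ((-a : 𝓞 K) : K) := by
    rw [ZSpan.fract_apply, Pi.sub_apply, show ((ZSpan.floor hF.basis x : ι → ℂ)) = _ from ha]
    simp [sub_eq_add_neg]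
  rw [← h]
  exact (norm_le_pi_norm _ i).trans (ZSpan.norm_fract_le hF.basis x)

include hF in
/-- Finitely many elements of a lattice `d⁻¹ 𝓞` are bounded at every place. -/
theorem finite_bounded {d : 𝓞 K} (hd : d ≠ 0) (B : ℝ) :
    Set.Finite {x : K | (∃ a : 𝓞 K, x * d = a) ∧ ∀ i, ‖emb i x‖ ≤ B} := by
  classical
  set B' : ℝ := ∑ i, |B| * ‖emb i d‖ with hB'
  have hfin : Set.Finite ((Submodule.span ℤ (Set.range hF.basis) : Set (ι → ℂ)) ∩
      Metric.closedBall 0 B') := by
    rw [Set.inter_comm]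
    exact ZSpan.setFinite_inter hF.basis Metric.isBounded_closedBall
  have hd0 : (d : K) ≠ 0 := by simpa using hd
  refine Set.Finite.of_finite_image (f := fun x : K => fun i => emb i (x * d))
    (hfin.subset ?_) ?_
  · rintro _ ⟨x, ⟨⟨a, ha⟩, hx⟩, rfl⟩
    refine ⟨hF.mem_span_basis.mpr ⟨a, funext fun i => congrArg (emb i) ha⟩, ?_⟩
    rw [mem_closedBall_zero_iff, pi_norm_le_iff_of_nonneg
      (Finset.sum_nonneg fun i _ => by positivity)]
    intro i
    show ‖emb i (x * d)‖ ≤ _
    rw [map_mul, norm_mul]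
    exact (mul_le_mul_of_nonneg_right ((hx i).trans (le_abs_self B)) (norm_nonneg _)).trans
      (Finset.single_le_sum (f := fun i => |B| * ‖emb i d‖)
        (fun i _ => by positivity) (Finset.mem_univ i))
  · intro x _ y _ h
    obtain ⟨i⟩ : Nonempty ι := hF.placeEquiv.nonempty
    exact mul_right_cancel₀ hd0 ((emb i).injective (congrFun h i))

include hF in
/-- A nonzero element of a lattice `d⁻¹ 𝓞` has norm bounded below. -/
theorem le_prod_norm_sq {d : 𝓞 K} (hd : d ≠ 0) {x : K} (hx : x ≠ 0)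
    (hxd : ∃ a : 𝓞 K, x * d = a) :
    (|(Algebra.norm ℚ (d : K) : ℝ)|)⁻¹ ≤ ∏ i, ‖emb i x‖ ^ 2 := by
  obtain ⟨a, ha⟩ := hxd
  have hd0 : (d : K) ≠ 0 := by simpa using hd
  have ha0 : a ≠ 0 := by
    rintro rfl
    simp [hd0, hx] at ha
  have h1 : (1 : ℝ) ≤ |(Algebra.norm ℚ (a : K) : ℝ)| := by
    have hne : Algebra.norm ℤ a ≠ 0 := Algebra.norm_ne_zero_iff.mpr ha0
    rw [← Algebra.coe_norm_int a, Rat.cast_intCast]
    exact_mod_cast Int.one_le_abs hne
  rw [hF.prod_norm_sq]
  have hmul : |(Algebra.norm ℚ x : ℝ)| * |(Algebra.norm ℚ (d : K) : ℝ)| =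
      |(Algebra.norm ℚ (a : K) : ℝ)| := by
    rw [← abs_mul, ← Rat.cast_mul, ← map_mul, ha]
  have hpos : (0 : ℝ) < |(Algebra.norm ℚ (d : K) : ℝ)| := by
    rw [abs_pos, Rat.cast_ne_zero]
    exact Algebra.norm_ne_zero_iff.mpr hd0
  rw [inv_le_iff_one_le_mul₀ hpos, hmul]
  exact h1

include hF in
/-- Units balance any positive vector. -/
theorem exists_unit_balance :
    ∃ C : ℝ, 0 < C ∧ ∀ r : ι → ℝ, (∀ i, 0 < r i) →
      ∃ u : (𝓞 K)ˣ, ∀ i j, ‖emb i (u : K)‖ * r i ≤ C * (‖emb j (u : K)‖ * r j) := by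
  classical
  obtain ⟨i₀, hi₀⟩ : ∃ i₀, hF.placeEquiv i₀ = Units.dirichletUnitTheorem.w₀ :=
    hF.placeEquiv.surjective _
  let b := Free.chooseBasis ℤ (Units.unitLattice K)
  let bR := b.ofZLatticeBasis ℝ (Units.unitLattice K)
  let M : ℝ := ∑ j, ‖bR j‖
  let A : ℝ := (Fintype.card ι : ℝ) * M
  refine ⟨Real.exp (2 * A + 2 * M), Real.exp_pos _, fun r hr => ?_⟩
  set n : ℝ := (Fintype.card ι : ℝ) with hn
  have hn0 : 0 < n := by
    have : Nonempty ι := ⟨i₀⟩
    rw [hn]
    exact_mod_cast Fintype.card_pos (α := ι)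
  set m : ℝ := (∑ i, Real.log (r i)) / n with hm
  let X : Units.dirichletUnitTheorem.logSpace K := fun w =>
    2 * (m - Real.log (r (hF.placeEquiv.symm w.1)))
  have hspan : Submodule.span ℤ (Set.range bR) = Units.unitLattice K :=
    b.ofZLatticeBasis_span ℝ
  obtain ⟨e, -, he⟩ : ((ZSpan.floor bR X : Submodule.span ℤ (Set.range bR)) :
      Units.dirichletUnitTheorem.logSpace K) ∈ Units.unitLattice K :=
    hspan.le (ZSpan.floor bR X).2
  rw [AddMonoidHom.coe_toIntLinearMap] at he
  set u := Additive.toMul e with hu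
  have hpos : ∀ i, 0 < ‖emb i (u : K)‖ := fun i => norm_pos_iff.mpr (by simp)
  set L : ι → ℝ := fun i => Real.log (‖emb i (u : K)‖) + Real.log (r i) with hL
  have hnear : ∀ i, i ≠ i₀ → |L i - m| ≤ M := by
    intro i hi
    have hw : hF.placeEquiv i ≠ Units.dirichletUnitTheorem.w₀ := fun h =>
      hi (hF.placeEquiv.injective (h.trans hi₀.symm))
    have h1 : |(ZSpan.fract bR X) ⟨hF.placeEquiv i, hw⟩| ≤ M :=
      (norm_le_pi_norm _ _).trans (ZSpan.norm_fract_le (K := ℝ) bR X)
    have hX : X ⟨hF.placeEquiv i, hw⟩ = 2 * (m - Real.log (r i)) := by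
      simp [X]
    rw [ZSpan.fract_apply, Pi.sub_apply, ← he, hX, show e = Additive.ofMul u from rfl,
      Units.dirichletUnitTheorem.logEmbedding_component, hF.mult_eq_two, hF.placeEquiv_value,
      Nat.cast_ofNat, ← mul_sub, abs_mul, abs_two] at h1
    have h2 : |L i - m| = |m - Real.log (r i) - Real.log ‖emb i (u : K)‖| := by
      rw [← abs_neg, hL]; ring_nf
    rw [h2]
    linarith [abs_nonneg (m - Real.log (r i) - Real.log ‖emb i (u : K)‖)]
  have hsum : ∑ i, L i = n * m := by
    have h1 : ∑ i, Real.log ‖emb i (u : K)‖ = 0 := by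
      have h := Units.dirichletUnitTheorem.sum_logEmbedding_component (K := K) u
      have h' : ∑ w : InfinitePlace K, (mult w : ℝ) * Real.log (w (u : K)) = 0 := by
        rw [Fintype.sum_eq_add_sum_subtype_ne _ Units.dirichletUnitTheorem.w₀]
        simp only [Units.dirichletUnitTheorem.logEmbedding_component] at h
        rw [h]; ring
      rw [← hF.placeEquiv.sum_comp] at h'
      simp only [hF.mult_eq_two, hF.placeEquiv_value, ← Finset.mul_sum] at h'
      simpa using h'
    rw [hL, Finset.sum_add_distrib, h1, zero_add, hm]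
    field_simp
  have hi₀bound : |L i₀ - m| ≤ A := by
    have h0 : L i₀ - m = -∑ i ∈ Finset.univ.erase i₀, (L i - m) := by
      rw [Finset.sum_erase_eq_sub (Finset.mem_univ _), Finset.sum_sub_distrib, hsum,
        Finset.sum_const, Finset.card_univ, nsmul_eq_mul]
      ring
    rw [h0, abs_neg]
    refine (Finset.abs_sum_le_sum_abs _ _).trans ?_
    refine (Finset.sum_le_sum fun i hi => hnear i (Finset.ne_of_mem_erase hi)).trans ?_
    rw [Finset.sum_const, nsmul_eq_mul]
    refine mul_le_mul_of_nonneg_right ?_ (Finset.sum_nonneg fun _ _ => norm_nonneg _)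
    exact_mod_cast (Finset.card_erase_le (a := i₀) (s := Finset.univ))
  have hM0 : 0 ≤ M := Finset.sum_nonneg fun _ _ => norm_nonneg _
  have hA0 : 0 ≤ A := mul_nonneg hn0.le hM0
  have hall : ∀ i, |L i - m| ≤ A + M := fun i => by
    rcases eq_or_ne i i₀ with hi | hi
    · rw [hi]; linarith
    · linarith [hnear i hi]
  refine ⟨u, fun i j => ?_⟩
  have hij : L i ≤ (2 * A + 2 * M) + L j := by
    linarith [abs_le.mp (hall i), abs_le.mp (hall j)]
  have hexp : ∀ k, Real.exp (L k) = ‖emb k (u : K)‖ * r k := fun k => by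
    rw [hL, Real.exp_add, Real.exp_log (hpos k), Real.exp_log (hr k)]
  have := Real.exp_le_exp.mpr hij
  rwa [hexp, Real.exp_add _ (L j), hexp] at this

end IsFrame

end Fermat.Agent.LT.Reduction
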