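/-
The product formula form of Minkowski's lemma for pairs of integers, by pigeonhole.
-/
import Fermat.Agent.LT.Reduction.Frame

set_option autoImplicit false

noncomputable section

open NumberField Module

namespace Fermat.Agent.LT.Reduction

variable {K : Type*} [Field K] {ι : Type*}

/-- The binary hermitian form attached to a point `(z, r)` at the place `i`. -/
def hForm (emb : ι → (K →+* ℂ)) (z : ι → ℂ) (r : ι → ℝ) (c d : K) (i : ι) : ℝ :=
  (‖emb i c * z i + emb i d‖ ^ 2 + ‖emb i c‖ ^ 2 * r i ^ 2) / r i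

theorem hForm_nonneg (emb : ι → (K →+* ℂ)) (z : ι → ℂ) (r : ι → ℝ) (hr : ∀ i, 0 < r i)
    (c d : K) (i : ι) : 0 ≤ hForm emb z r c d i :=
  div_nonneg (by positivity) (hr i).le

theorem hForm_pos (emb : ι → (K →+* ℂ)) (z : ι → ℂ) (r : ι → ℝ) (hr : ∀ i, 0 < r i)
    {c d : K} (h : c ≠ 0 ∨ d ≠ 0) (i : ι) : 0 < hForm emb z r c d i := by
  refine div_pos ?_ (hr i)
  by_cases hc : c = 0
  · subst hc
    have hd : d ≠ 0 := h.resolve_left (by simp)
    have : 0 < ‖emb i d‖ := norm_pos_iff.mpr (by simp [hd])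
    simp only [map_zero, zero_mul, zero_add, norm_zero, ne_eq, OfNat.ofNat_ne_zero,
      not_false_eq_true, zero_pow, add_zero]
    positivity
  · have := hr i
    have : 0 < ‖emb i c‖ := norm_pos_iff.mpr (by simp [hc])
    positivity

theorem hForm_smul (emb : ι → (K →+* ℂ)) (z : ι → ℂ) (r : ι → ℝ) (t c d : K) (i : ι) :
    hForm emb z r (t * c) (t * d) i = ‖emb i t‖ ^ 2 * hForm emb z r c d i := by
  unfold hForm
  rw [map_mul, map_mul, mul_assoc, ← mul_add, norm_mul, norm_mul]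
  ring

theorem hForm_unit_smul (emb : ι → (K →+* ℂ)) (z : ι → ℂ) (r : ι → ℝ) {u : K} (hu : u ≠ 0)
    (c d : K) (i : ι) :
    hForm emb z r (u * c) d i =
      ‖emb i u‖ *
        hForm emb (fun j => emb j u * z j) (fun j => ‖emb j u‖ * r j) c d i := by
  have hn : ‖emb i u‖ ≠ 0 := by simp [hu]
  unfold hForm
  rw [map_mul, norm_mul, show emb i u * emb i c * z i = emb i c * (emb i u * z i) by ring]
  field_simp

variable [NumberField K] [Fintype ι] {emb : ι → (K →+* ℂ)}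

namespace IsFrame

variable (hF : IsFrame emb)

include hF in
theorem prod_norm_unit (u : (𝓞 K)ˣ) : ∏ i, ‖emb i (u : K)‖ = 1 := by
  have h := hF.prod_norm_sq (u : K)
  rw [← Rat.cast_abs, Units.norm] at h
  rw [Finset.prod_pow, Rat.cast_one] at h
  exact (sq_eq_one_iff.mp h).resolve_right fun h1 => by
    have := Finset.prod_nonneg fun i (_ : i ∈ Finset.univ) => norm_nonneg (emb i (u : K))
    linarith

include hF in
/-- Dirichlet's approximation argument. -/
theorem exists_approx :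
    ∃ S : ℝ, 0 ≤ S ∧ ∀ (z : ι → ℂ) (N : ℕ), 0 < N → ∃ c d : 𝓞 K, c ≠ 0 ∧
      ∀ i, ‖emb i c‖ ≤ N * S ∧ ‖emb i c * z i + emb i d‖ ≤ S / N := by
  classical
  set B := hF.basis with hB
  refine ⟨∑ j, ‖B j‖, Finset.sum_nonneg fun _ _ => norm_nonneg _, fun z N hN => ?_⟩
  have hbound : ∀ (f : Free.ChooseBasisIndex ℤ (𝓞 K) → ℝ) (T : ℝ), (∀ j, |f j| ≤ T) →
      ∀ i, ‖(∑ j, f j • B j) i‖ ≤ T * ∑ j, ‖B j‖ := by
    intro f T hf i
    refine (norm_le_pi_norm _ i).trans ((norm_sum_le _ _).trans ?_)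
    rw [Finset.mul_sum]
    refine Finset.sum_le_sum fun j _ => ?_
    rw [norm_smul, Real.norm_eq_abs]
    exact mul_le_mul_of_nonneg_right (hf j) (norm_nonneg _)
  set el : (Free.ChooseBasisIndex ℤ (𝓞 K) → Fin (N + 1)) → 𝓞 K :=
    fun k => ∑ j, ((k j : ℕ) : ℤ) • RingOfIntegers.basis K j with hel
  set co : (Free.ChooseBasisIndex ℤ (𝓞 K) → Fin (N + 1)) →
      Free.ChooseBasisIndex ℤ (𝓞 K) → ℝ :=
    fun k j => B.repr (fun i => emb i (el k) * z i) j with hco
  have hNR : (0 : ℝ) < N := by exact_mod_cast hN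
  have hlt : ∀ k j, ⌊Int.fract (co k j) * N⌋₊ < N := fun k j =>
    (Nat.floor_lt (mul_nonneg (Int.fract_nonneg _) hNR.le)).mpr
      (mul_lt_of_lt_one_left hNR (Int.fract_lt_one _))
  obtain ⟨k, k', hne, hbin⟩ := Fintype.exists_ne_map_eq_of_card_lt
    (fun k j => (⟨⌊Int.fract (co k j) * N⌋₊, hlt k j⟩ : Fin N)) (by
      rw [Fintype.card_fun, Fintype.card_fun, Fintype.card_fin, Fintype.card_fin]
      exact Nat.pow_lt_pow_left (Nat.lt_succ_self N) Fintype.card_ne_zero)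
  have helK : ∀ k i, emb i (el k) = (∑ j, ((k j : ℕ) : ℝ) • B j) i := by
    intro k i
    simp only [hel, Finset.sum_apply, Pi.smul_apply, hB, hF.basis_apply, map_sum,
      zsmul_eq_mul, map_mul, Int.cast_natCast, map_natCast,
      Complex.real_smul, Complex.ofReal_natCast, ← integralBasis_apply]
  refine ⟨el k - el k', -∑ j, (⌊co k j⌋ - ⌊co k' j⌋) • RingOfIntegers.basis K j, ?_,
    fun i => ⟨?_, ?_⟩⟩
  · intro h
    refine hne (funext fun j => ?_)
    have := congrFun (congrArg (fun x => ⇑((RingOfIntegers.basis K).repr x)) (sub_eq_zero.mp h)) j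
    simp only [hel, Basis.repr_sum_self] at this
    exact Fin.ext (by exact_mod_cast this)
  · have h1 : emb i ((el k - el k' : 𝓞 K) : K) =
        (∑ j, (((k j : ℕ) : ℝ) - ((k' j : ℕ) : ℝ)) • B j) i := by
      simp only [map_sub, helK, sub_smul, Finset.sum_sub_distrib, Pi.sub_apply]
    rw [h1]
    refine hbound _ N (fun j => ?_) i
    have h2 : ((k j : ℕ) : ℝ) ≤ N := by exact_mod_cast Nat.lt_succ_iff.mp (k j).2
    have h3 : ((k' j : ℕ) : ℝ) ≤ N := by exact_mod_cast Nat.lt_succ_iff.mp (k' j).2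
    rw [abs_le]
    constructor <;> linarith [Nat.cast_nonneg (α := ℝ) (k j : ℕ),
      Nat.cast_nonneg (α := ℝ) (k' j : ℕ)]
  · have h1 : emb i ((el k - el k' : 𝓞 K) : K) * z i +
        emb i ((-∑ j, (⌊co k j⌋ - ⌊co k' j⌋) • RingOfIntegers.basis K j : 𝓞 K) : K) =
        (∑ j, (Int.fract (co k j) - Int.fract (co k' j)) • B j) i := by
      have hz : ∀ k, emb i (el k) * z i = (∑ j, co k j • B j) i := fun k => by
        rw [hco, B.sum_repr]
      simp only [map_sub, sub_mul, hz, map_neg, map_sum, Finset.sum_apply, Pi.smul_apply, hB,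
        hF.basis_apply, zsmul_eq_mul, map_mul, map_intCast, Complex.real_smul, Int.cast_sub,
        Complex.ofReal_sub, Int.fract, Complex.ofReal_intCast, ← integralBasis_apply,
        ← Finset.sum_sub_distrib, ← Finset.sum_neg_distrib, ← Finset.sum_add_distrib]
      exact Finset.sum_congr rfl fun j _ => by ring
    rw [h1, div_eq_mul_inv, mul_comm (∑ j, ‖B j‖)]
    refine hbound _ _ (fun j => ?_) i
    have h2 : ⌊Int.fract (co k j) * N⌋₊ = ⌊Int.fract (co k' j) * N⌋₊ := by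
      have := congrArg Fin.val (congrFun hbin j)
      simpa using this
    have h3 : |Int.fract (co k j) * N - Int.fract (co k' j) * N| ≤ 1 := by
      have a1 := Nat.floor_le (mul_nonneg (Int.fract_nonneg (co k j)) hNR.le)
      have a2 := Nat.lt_floor_add_one (Int.fract (co k j) * N)
      have a3 := Nat.floor_le (mul_nonneg (Int.fract_nonneg (co k' j)) hNR.le)
      have a4 := Nat.lt_floor_add_one (Int.fract (co k' j) * N)
      rw [h2] at a1 a2
      rw [abs_le]
      constructor <;> linarith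
    rwa [← sub_mul, abs_mul, abs_of_pos hNR, ← le_div_iff₀ hNR, one_div] at h3

include hF in
/-- Every point has a pair of integers of bounded total size. -/
theorem exists_prod_hForm_le :
    ∃ C0 : ℝ, ∀ (z : ι → ℂ) (r : ι → ℝ), (∀ i, 0 < r i) →
      ∃ c d : 𝓞 K, (c ≠ 0 ∨ d ≠ 0) ∧ ∏ i, hForm emb z r (c : K) (d : K) i ≤ C0 := by
  classical
  obtain ⟨S, hS, happ⟩ := hF.exists_approx
  obtain ⟨C, hC, hbal⟩ := hF.exists_unit_balance
  obtain ⟨i₀⟩ : Nonempty ι := hF.placeEquiv.nonempty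
  refine ⟨∏ _i : ι, (C + 5 * S ^ 2 * C), fun z r hr => ?_⟩
  obtain ⟨u, hu⟩ := hbal r hr
  have hu0 : (u : K) ≠ 0 := by simp
  set r' : ι → ℝ := fun j => ‖emb j (u : K)‖ * r j with hr'
  have hr'pos : ∀ i, 0 < r' i := fun i => mul_pos (norm_pos_iff.mpr (by simp)) (hr i)
  set z' : ι → ℂ := fun j => emb j (u : K) * z j with hz'
  suffices h : ∃ c d : 𝓞 K, (c ≠ 0 ∨ d ≠ 0) ∧
      ∀ i, hForm emb z' r' (c : K) (d : K) i ≤ C + 5 * S ^ 2 * C by
    obtain ⟨c, d, hne, hle⟩ := h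
    refine ⟨(u : 𝓞 K) * c, d, ?_, ?_⟩
    · rcases hne with h | h
      · exact Or.inl (mul_ne_zero (Units.ne_zero u) h)
      · exact Or.inr h
    · rw [show (((u : 𝓞 K) * c : 𝓞 K) : K) = (u : K) * (c : K) from
        map_mul (algebraMap (𝓞 K) K) _ _]
      simp only [hForm_unit_smul emb z r hu0]
      rw [Finset.prod_mul_distrib, hF.prod_norm_unit u, one_mul]
      exact Finset.prod_le_prod (fun i _ => hForm_nonneg emb z' r' hr'pos _ _ i)
        fun i _ => hle i
  set R := r' i₀ with hR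
  have hR0 : 0 < R := hr'pos i₀
  have h5 : 0 ≤ 5 * S ^ 2 * C := by positivity
  by_cases hR1 : 1 ≤ R
  · refine ⟨0, 1, Or.inr one_ne_zero, fun i => ?_⟩
    have h1 : R ≤ C * r' i := hu i₀ i
    rw [hForm]
    simp only [map_zero, zero_mul, zero_add, norm_zero, map_one, norm_one, one_pow, ne_eq,
      OfNat.ofNat_ne_zero, not_false_eq_true, zero_pow, add_zero]
    rw [div_le_iff₀ (hr'pos i)]
    nlinarith [hr'pos i, mul_nonneg h5 (hr'pos i).le]
  · push Not at hR1
    set N := ⌈(Real.sqrt R)⁻¹⌉₊ with hN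
    have hsR : 0 < Real.sqrt R := Real.sqrt_pos.mpr hR0
    have hN0 : 0 < N := Nat.ceil_pos.mpr (inv_pos.mpr hsR)
    have hN1 : (Real.sqrt R)⁻¹ ≤ N := Nat.le_ceil _
    have hN2 : (N : ℝ) ≤ 2 * (Real.sqrt R)⁻¹ := by
      have h1 : (N : ℝ) < (Real.sqrt R)⁻¹ + 1 := Nat.ceil_lt_add_one (inv_pos.mpr hsR).le
      have h2 : 1 ≤ (Real.sqrt R)⁻¹ := by
        refine (one_le_inv₀ hsR).mpr ?_
        rw [Real.sqrt_le_one]
        exact hR1.le
      linarith
    obtain ⟨c, d, hc, hcd⟩ := happ z' N hN0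
    refine ⟨c, d, Or.inl hc, fun i => ?_⟩
    have hNR : (0 : ℝ) < N := by exact_mod_cast hN0
    have hsq : Real.sqrt R ^ 2 = R := Real.sq_sqrt hR0.le
    have e1 : S ^ 2 / (N : ℝ) ^ 2 ≤ S ^ 2 * R := by
      rw [div_le_iff₀ (by positivity), mul_assoc]
      refine le_mul_of_one_le_right (sq_nonneg S) ?_
      have : 1 ≤ (N : ℝ) * Real.sqrt R := by
        rw [← div_le_iff₀ hsR, one_div]; exact hN1
      calc (1 : ℝ) = 1 ^ 2 := (one_pow 2).symm
        _ ≤ ((N : ℝ) * Real.sqrt R) ^ 2 := pow_le_pow_left₀ zero_le_one this 2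
        _ = R * (N : ℝ) ^ 2 := by rw [mul_pow, hsq, mul_comm]
    have e2 : (N : ℝ) ^ 2 * R ≤ 4 := by
      have : (N : ℝ) * Real.sqrt R ≤ 2 := by
        rw [← le_div_iff₀ hsR, div_eq_mul_inv]; exact hN2
      calc (N : ℝ) ^ 2 * R = ((N : ℝ) * Real.sqrt R) ^ 2 := by rw [mul_pow, hsq]
        _ ≤ 2 ^ 2 := pow_le_pow_left₀ (mul_nonneg hNR.le hsR.le) this 2
        _ = 4 := by norm_num
    have n1 : ‖emb i (c : K) * z' i + emb i (d : K)‖ ^ 2 ≤ S ^ 2 * R := by
      refine le_trans ?_ e1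
      rw [← div_pow]
      exact pow_le_pow_left₀ (norm_nonneg _) (hcd i).2 2
    have n2 : ‖emb i (c : K)‖ ^ 2 * r' i ^ 2 ≤ 4 * S ^ 2 * C * r' i := by
      have a : ‖emb i (c : K)‖ ^ 2 ≤ (N : ℝ) ^ 2 * S ^ 2 := by
        rw [← mul_pow]
        exact pow_le_pow_left₀ (norm_nonneg _) (hcd i).1 2
      have b : r' i ≤ C * R := hu i i₀
      calc ‖emb i (c : K)‖ ^ 2 * r' i ^ 2 ≤ ((N : ℝ) ^ 2 * S ^ 2) * ((C * R) * r' i) := by
              refine mul_le_mul a ?_ (sq_nonneg _) (by positivity)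
              rw [sq]
              exact mul_le_mul_of_nonneg_right b (hr'pos i).le
        _ = ((N : ℝ) ^ 2 * R) * (S ^ 2 * C * r' i) := by ring
        _ ≤ 4 * (S ^ 2 * C * r' i) :=
              mul_le_mul_of_nonneg_right e2 (by have := (hr'pos i).le; positivity)
        _ = 4 * S ^ 2 * C * r' i := by ring
    have b' : R ≤ C * r' i := hu i₀ i
    rw [hForm, div_le_iff₀ (hr'pos i)]
    nlinarith [mul_le_mul_of_nonneg_left b' (sq_nonneg S), mul_pos hC (hr'pos i)]

end IsFrame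

end Fermat.Agent.LT.Reduction
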