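/-
Class group reduction for pairs of integers and the covering of the upper half spaces by finitely
many Siegel sets (coordinate form).
-/
import Fermat.Agent.LT.Reduction.Minkowski
import Mathlib.NumberTheory.NumberField.ClassNumber
import Mathlib.RingTheory.ClassGroup.Basic
import Mathlib.LinearAlgebra.Matrix.SpecialLinearGroup

set_option autoImplicit false

noncomputable section

open NumberField Module
open scoped nonZeroDivisors MatrixGroups

namespace Fermat.Agent.LT.Reduction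

variable {K : Type*} [Field K] [NumberField K]

theorem exists_inverse_row (p q : 𝓞 K) (h : p ≠ 0 ∨ q ≠ 0) :
    ∃ a b : K, a * (q : K) - b * (p : K) = 1 ∧ ∀ x ∈ Ideal.span ({p, q} : Set (𝓞 K)),
      a * (x : K) ∈ (algebraMap (𝓞 K) K).range ∧ b * (x : K) ∈ (algebraMap (𝓞 K) K).range := by
  set I : Ideal (𝓞 K) := Ideal.span {p, q} with hI
  have hI0 : I ≠ ⊥ := by
    intro h0
    rw [hI, Ideal.span_eq_bot] at h0
    rcases h with h | h
    · exact h (h0 p (by simp))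
    · exact h (h0 q (by simp))
  set J : FractionalIdeal (𝓞 K)⁰ K := (I : FractionalIdeal (𝓞 K)⁰ K) with hJ
  have hJ0 : J ≠ 0 := FractionalIdeal.coeIdeal_ne_zero.mpr hI0
  have h1 : (1 : K) ∈ J * J⁻¹ := by
    rw [mul_inv_cancel₀ hJ0]
    exact FractionalIdeal.one_mem_one _
  suffices ∃ a ∈ J⁻¹, ∃ b ∈ J⁻¹, a * (q : K) - b * (p : K) = 1 by
    obtain ⟨a, ha, b, hb, hab⟩ := this
    refine ⟨a, b, hab, fun x hx => ⟨?_, ?_⟩⟩
    · obtain ⟨y, hy⟩ := (FractionalIdeal.mem_one_iff _).mp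
        ((FractionalIdeal.mem_inv_iff hJ0).mp ha (x : K) (FractionalIdeal.mem_coeIdeal_of_mem _ hx))
      exact ⟨y, hy⟩
    · obtain ⟨y, hy⟩ := (FractionalIdeal.mem_one_iff _).mp
        ((FractionalIdeal.mem_inv_iff hJ0).mp hb (x : K) (FractionalIdeal.mem_coeIdeal_of_mem _ hx))
      exact ⟨y, hy⟩
  refine FractionalIdeal.mul_induction_on
    (C := fun x : K => ∃ a ∈ J⁻¹, ∃ b ∈ J⁻¹, a * (q : K) - b * (p : K) = x) h1 ?_ ?_
  · intro i hi j hj
    obtain ⟨t, ht, rfl⟩ := (FractionalIdeal.mem_coeIdeal _).mp hi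
    obtain ⟨x, y, rfl⟩ := Ideal.mem_span_pair.mp ht
    refine ⟨(y : K) * j, ?_, -((x : K) * j), ?_, ?_⟩
    · exact Submodule.smul_mem (J⁻¹ : FractionalIdeal (𝓞 K)⁰ K).coeToSubmodule y hj
    · exact Submodule.neg_mem _
        (Submodule.smul_mem (J⁻¹ : FractionalIdeal (𝓞 K)⁰ K).coeToSubmodule x hj)
    · simp only [map_add, map_mul]
      ring
  · rintro _ _ ⟨a, ha, b, hb, rfl⟩ ⟨a', ha', b', hb', rfl⟩
    exact ⟨a + a', Submodule.add_mem _ ha ha', b + b', Submodule.add_mem _ hb hb', by ring⟩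

/-- Pairs of integers fall into finitely many classes under `SL₂(𝓞)` and scaling. -/
theorem exists_finite_pairs :
    ∃ (S : Finset (SL(2, K))) (B : ℝ), ∀ c d : 𝓞 K, (c ≠ 0 ∨ d ≠ 0) →
      ∃ g ∈ S, ∃ (γ : SL(2, 𝓞 K)) (x : K), |(Algebra.norm ℚ x : ℝ)| ≤ B ∧
        (g * γ.map (algebraMap (𝓞 K) K)).1 1 0 = x * c ∧
        (g * γ.map (algebraMap (𝓞 K) K)).1 1 1 = x * d := by
  classical
  let Pair := {v : 𝓞 K × 𝓞 K // v.1 ≠ 0 ∨ v.2 ≠ 0}
  have hne : ∀ v : Pair, Ideal.span ({v.1.1, v.1.2} : Set (𝓞 K)) ∈ (Ideal (𝓞 K))⁰ := by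
    intro v
    rw [mem_nonZeroDivisors_iff_ne_zero, ne_eq, Ideal.zero_eq_bot, Ideal.span_eq_bot]
    intro h
    rcases v.2 with h' | h'
    · exact h' (h _ (by simp))
    · exact h' (h _ (by simp))
  let cl : Pair → ClassGroup (𝓞 K) := fun v => ClassGroup.mk0 ⟨_, hne v⟩
  have hrep : ∀ k : Set.range cl, ∃ v : Pair, cl v = k.1 := fun k => k.2
  choose P hP using hrep
  choose a b hab hint using fun k => exists_inverse_row (P k).1.1 (P k).1.2 (P k).2
  let g : Set.range cl → SL(2, K) := fun k =>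
    ⟨!![a k, b k; ((P k).1.1 : K), ((P k).1.2 : K)], by
      rw [Matrix.det_fin_two_of]; exact hab k⟩
  refine ⟨Finset.univ.image g, ∑ k, (|(Algebra.norm ℚ ((P k).1.1 : K) : ℝ)| +
    |(Algebra.norm ℚ ((P k).1.2 : K) : ℝ)|), fun c d hcd => ?_⟩
  let k : Set.range cl := ⟨cl ⟨(c, d), hcd⟩, Set.mem_range_self _⟩
  refine ⟨g k, Finset.mem_image_of_mem _ (Finset.mem_univ k), ?_⟩
  obtain ⟨x1, y1, hx1, hy1, hxy⟩ := ClassGroup.mk0_eq_mk0_iff.mp (hP k).symm
  set p := (P k).1.1 with hp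
  set q := (P k).1.2 with hq
  change Ideal.span {x1} * Ideal.span {c, d} = Ideal.span {y1} * Ideal.span {p, q} at hxy
  have hmem : ∀ e ∈ Ideal.span ({c, d} : Set (𝓞 K)), ∃ t ∈ Ideal.span ({p, q} : Set (𝓞 K)),
      y1 * t = x1 * e := fun e he => Ideal.mem_span_singleton_mul.mp
    (hxy ▸ Ideal.mul_mem_mul (Ideal.mem_span_singleton_self x1) he)
  obtain ⟨t, ht, hct⟩ := hmem c (Ideal.subset_span (by simp))
  obtain ⟨t', ht', hdt⟩ := hmem d (Ideal.subset_span (by simp))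
  have hspan : Ideal.span ({t, t'} : Set (𝓞 K)) = Ideal.span {p, q} := by
    have h1 : Ideal.span {y1} * Ideal.span ({t, t'} : Set (𝓞 K)) =
        Ideal.span {y1} * Ideal.span {p, q} := by
      rw [← hxy, Ideal.span_mul_span', Ideal.span_mul_span', Set.singleton_mul,
        Set.singleton_mul, Set.image_pair, Set.image_pair, hct, hdt]
    exact mul_left_cancel₀ (by simpa [Ideal.zero_eq_bot] using hy1) h1
  have hy1K : (y1 : K) ≠ 0 := by simpa using hy1
  have hx1K : (x1 : K) ≠ 0 := by simpa using hx1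
  have htx : (t : K) = (x1 : K) / y1 * c := by
    rw [div_mul_eq_mul_div, eq_div_iff hy1K, mul_comm]
    exact_mod_cast hct
  have htx' : (t' : K) = (x1 : K) / y1 * d := by
    rw [div_mul_eq_mul_div, eq_div_iff hy1K, mul_comm]
    exact_mod_cast hdt
  have hnz : t ≠ 0 ∨ t' ≠ 0 := hcd.imp
    (fun h h0 => h (by simpa [h0, hx1] using hct.symm))
    (fun h h0 => h (by simpa [h0, hx1] using hdt.symm))
  obtain ⟨a', b', hab', hint'⟩ := exists_inverse_row t t' hnz
  have hpI : p ∈ Ideal.span ({p, q} : Set (𝓞 K)) := Ideal.subset_span (by simp)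
  have hqI : q ∈ Ideal.span ({p, q} : Set (𝓞 K)) := Ideal.subset_span (by simp)
  rw [hspan] at hint'
  obtain ⟨e00, he00⟩ := sub_mem (hint' q hqI).1 (hint k t ht).2
  obtain ⟨e01, he01⟩ := sub_mem (hint' q hqI).2 (hint k t' ht').2
  obtain ⟨e10, he10⟩ := sub_mem (hint k t ht).1 (hint' p hpI).1
  obtain ⟨e11, he11⟩ := sub_mem (hint k t' ht').1 (hint' p hpI).2
  have hdet : !![e00, e01; e10, e11].det = 1 := by
    apply FaithfulSMul.algebraMap_injective (𝓞 K) K
    rw [Matrix.det_fin_two_of, map_sub, map_mul, map_mul, he00, he01, he10, he11, map_one]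
    have := hab k
    linear_combination (a' * (t' : K) - b' * (t : K)) * this + hab'
  refine ⟨⟨!![e00, e01; e10, e11], hdet⟩, (x1 : K) / y1, ?_, ?_, ?_⟩
  · obtain ⟨w, hw, w', hw0, hw'⟩ : ∃ w : 𝓞 K, (w = p ∨ w = q) ∧ ∃ w' : 𝓞 K, w ≠ 0 ∧
        (w : K) = (x1 : K) / y1 * w' := by
      have key : ∀ w ∈ Ideal.span ({p, q} : Set (𝓞 K)), ∃ w' : 𝓞 K,
          (w : K) = (x1 : K) / y1 * w' := by
        intro w hw
        rw [← hspan] at hw
        obtain ⟨u, v, rfl⟩ := Ideal.mem_span_pair.mp hw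
        refine ⟨u * c + v * d, ?_⟩
        simp only [map_add, map_mul, htx, htx']
        ring
      rcases (P k).2 with h | h
      · obtain ⟨w', hw'⟩ := key p hpI
        exact ⟨p, Or.inl rfl, w', h, hw'⟩
      · obtain ⟨w', hw'⟩ := key q hqI
        exact ⟨q, Or.inr rfl, w', h, hw'⟩
    have hw'0 : w' ≠ 0 := fun h => hw0 (by simpa [h] using hw')
    have h1 : (1 : ℝ) ≤ |(Algebra.norm ℚ (w' : K) : ℝ)| := by
      rw [← Algebra.coe_norm_int w', Rat.cast_intCast]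
      exact_mod_cast Int.one_le_abs (Algebra.norm_ne_zero_iff.mpr hw'0)
    have h2 : |(Algebra.norm ℚ ((x1 : K) / y1) : ℝ)| ≤ |(Algebra.norm ℚ (w : K) : ℝ)| := by
      rw [hw', map_mul, Rat.cast_mul, abs_mul]
      exact le_mul_of_one_le_right (abs_nonneg _) h1
    refine h2.trans (le_trans ?_ (Finset.single_le_sum
      (f := fun k => |(Algebra.norm ℚ ((P k).1.1 : K) : ℝ)| +
        |(Algebra.norm ℚ ((P k).1.2 : K) : ℝ)|) (fun _ _ => by positivity) (Finset.mem_univ k)))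
    rcases hw with rfl | rfl <;> simp [hp, hq]
  · show (!![a k, b k; (p : K), (q : K)] *
      (!![e00, e01; e10, e11]).map (algebraMap (𝓞 K) K)) 1 0 = _
    simp [Matrix.mul_apply, Fin.sum_univ_two, he00, he10]
    linear_combination (t : K) * hab k + htx
  · show (!![a k, b k; (p : K), (q : K)] *
      (!![e00, e01; e10, e11]).map (algebraMap (𝓞 K) K)) 1 1 = _
    simp [Matrix.mul_apply, Fin.sum_univ_two, he01, he11]
    linear_combination (t' : K) * hab k + htx'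

variable {ι : Type*} [Fintype ι] {emb : ι → (K →+* ℂ)}

namespace IsFrame

variable (hF : IsFrame emb)

include hF in
/-- Covering: some translate by one of finitely many matrices has bounded form. -/
theorem exists_height :
    ∃ (S : Finset (SL(2, K))) (C : ℝ), ∀ (z : ι → ℂ) (r : ι → ℝ), (∀ i, 0 < r i) →
      ∃ g ∈ S, ∃ γ : SL(2, 𝓞 K),
        ∏ i, hForm emb z r ((g * γ.map (algebraMap (𝓞 K) K)).1 1 0)
          ((g * γ.map (algebraMap (𝓞 K) K)).1 1 1) i ≤ C := by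
  obtain ⟨S, B, hS⟩ := exists_finite_pairs (K := K)
  obtain ⟨C0, hC0⟩ := hF.exists_prod_hForm_le
  refine ⟨S, B * C0, fun z r hr => ?_⟩
  obtain ⟨c, d, hne, hle⟩ := hC0 z r hr
  obtain ⟨g, hg, γ, x, hx, e0, e1⟩ := hS c d hne
  refine ⟨g, hg, γ, ?_⟩
  rw [e0, e1]
  simp only [hForm_smul]
  rw [Finset.prod_mul_distrib, hF.prod_norm_sq]
  exact mul_le_mul hx hle (Finset.prod_nonneg fun i _ => hForm_nonneg emb z r hr _ _ i)
    ((abs_nonneg _).trans hx)

include hF in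
/-- Units and translations move a point of bounded-below height into a fixed box. -/
theorem exists_normalize {P0 : ℝ} (hP0 : 0 < P0) :
    ∃ c C R : ℝ, 0 < c ∧ 0 < C ∧ ∀ (z : ι → ℂ) (r : ι → ℝ), (∀ i, 0 < r i) →
      P0 ≤ ∏ i, r i → ∃ (u : (𝓞 K)ˣ) (a : 𝓞 K),
        (∀ i, c ≤ ‖emb i (u : K)‖ * r i) ∧
        (∀ i j, ‖emb i (u : K)‖ * r i ≤ C * (‖emb j (u : K)‖ * r j)) ∧
        ∀ i, ‖emb i (u : K) * z i + emb i a‖ ≤ R := by
  obtain ⟨C, hC, hbal⟩ := hF.exists_unit_balance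
  obtain ⟨R, hR⟩ := hF.exists_translate
  have : Nonempty ι := hF.placeEquiv.nonempty
  refine ⟨P0 ^ ((Fintype.card ι : ℝ)⁻¹) / C, C, R, by positivity, hC, fun z r hr hP => ?_⟩
  obtain ⟨u, hu⟩ := hbal r hr
  obtain ⟨a, ha⟩ := hR fun i => emb i (u : K) * z i
  refine ⟨u, a, fun i => ?_, hu, ha⟩
  set s := ‖emb i (u : K)‖ * r i with hs
  have hs0 : 0 ≤ s := mul_nonneg (norm_nonneg _) (hr i).le
  have h1 : P0 ≤ (C * s) ^ Fintype.card ι := by
    refine hP.trans ?_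
    calc ∏ j, r j = ∏ j, ‖emb j (u : K)‖ * r j := by
            rw [Finset.prod_mul_distrib, hF.prod_norm_unit u, one_mul]
      _ ≤ ∏ _j : ι, C * s := Finset.prod_le_prod
            (fun j _ => mul_nonneg (norm_nonneg _) (hr j).le) fun j _ => hu j i
      _ = (C * s) ^ Fintype.card ι := by rw [Finset.prod_const, Finset.card_univ]
  rw [div_le_iff₀ hC, mul_comm s C]
  calc P0 ^ ((Fintype.card ι : ℝ)⁻¹) ≤ ((C * s) ^ Fintype.card ι) ^ ((Fintype.card ι : ℝ)⁻¹) :=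
        Real.rpow_le_rpow hP0.le h1 (by positivity)
    _ = C * s := Real.pow_rpow_inv_natCast (mul_nonneg hC.le hs0) Fintype.card_ne_zero

end IsFrame

end Fermat.Agent.LT.Reduction
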