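/-
Bounded returns of `GL₂(K)` to a Siegel set: finitely many projective classes.
-/
import Fermat.Agent.LT.Reduction.Frame
import Fermat.Agent.LT.Adelic.Space

set_option autoImplicit false

noncomputable section

open NumberField Matrix
open scoped ComplexConjugate

namespace Fermat.Agent.LT.Reduction

open Fermat.Agent.LT.Adelic

/-- Entries of a matrix moving a bounded point to a bounded point, at one place. -/
theorem entries_le (g : GL (Fin 2) ℂ) (p : HSpace) {c0 R L M : ℝ} (hc0 : 0 < c0) (hR : 0 ≤ R)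
    (hL : 0 ≤ L) (hM : 0 ≤ M) (hr : c0 ≤ p.r) (hz : ‖p.z‖ ≤ R) (hz' : ‖(g • p).z‖ ≤ R)
    (h1 : p.r ≤ L * (g • p).r) (h2 : (g • p).r ≤ L * p.r)
    (h3 : (g : Matrix (Fin 2) (Fin 2) ℂ) 1 0 = 0 ∨ (g • p).r ≤ M) (j k : Fin 2) :
    ‖(g : Matrix (Fin 2) (Fin 2) ℂ) j k‖ ≤
      ((1 + R + L + M) ^ 3 * (1 + c0⁻¹)) * Real.sqrt L * Real.sqrt (HSpace.absDet g) := by
  set a := (g : Matrix (Fin 2) (Fin 2) ℂ) 0 0 with ha
  set b := (g : Matrix (Fin 2) (Fin 2) ℂ) 0 1 with hb
  set c := (g : Matrix (Fin 2) (Fin 2) ℂ) 1 0 with hc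
  set d := (g : Matrix (Fin 2) (Fin 2) ℂ) 1 1 with hd
  set q := c * p.z + d with hq
  set Δ := HSpace.absDet g with hΔ
  set D := HSpace.denSq g p with hD
  set w := (g • p).z with hw
  set s := (g • p).r with hs
  have hΔ0 : 0 < Δ := HSpace.absDet_pos g
  have hD0 : 0 < D := HSpace.denSq_pos g p
  have hr0 := p.r_pos
  have hs0 : 0 < s := (g • p).r_pos
  have hsD : s * D = Δ * p.r := by
    rw [hs, HSpace.smul_r, div_mul_cancel₀ _ hD0.ne']
  have hDeq : D = ‖q‖ ^ 2 + ‖c‖ ^ 2 * p.r ^ 2 := by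
    rw [hD, HSpace.denSq, Complex.normSq_eq_norm_sq, Complex.normSq_eq_norm_sq]
  have hDle : D ≤ L * Δ := by
    refine le_of_mul_le_mul_left ?_ hs0
    rw [hsD]
    calc Δ * p.r ≤ Δ * (L * s) := mul_le_mul_of_nonneg_left h1 hΔ0.le
      _ = s * (L * Δ) := by ring
  set t := Real.sqrt L * Real.sqrt Δ with ht
  have ht0 : 0 ≤ t := by positivity
  have ht2 : t ^ 2 = L * Δ := by rw [ht, mul_pow, Real.sq_sqrt hL, Real.sq_sqrt hΔ0.le]
  have hqle : ‖q‖ ≤ t := by
    rw [← pow_le_pow_iff_left₀ (norm_nonneg _) ht0 two_ne_zero, ht2]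
    nlinarith [sq_nonneg (‖c‖ * p.r)]
  have hcr : ‖c‖ * p.r ≤ t := by
    rw [← pow_le_pow_iff_left₀ (by positivity) ht0 two_ne_zero, ht2, mul_pow]
    nlinarith [sq_nonneg ‖q‖]
  have hcle : ‖c‖ ≤ t * c0⁻¹ := by
    rw [← div_eq_mul_inv, le_div_iff₀ hc0]
    exact (mul_le_mul_of_nonneg_left hr (norm_nonneg _)).trans hcr
  have hdle : ‖d‖ ≤ t + R * (t * c0⁻¹) := by
    calc ‖d‖ = ‖q - c * p.z‖ := by rw [hq, add_sub_cancel_left]
      _ ≤ ‖q‖ + ‖c‖ * ‖p.z‖ := (norm_sub_le _ _).trans (by rw [norm_mul])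
      _ ≤ t + t * c0⁻¹ * R := add_le_add hqle (mul_le_mul hcle hz (norm_nonneg _) (by positivity))
      _ = _ := by ring
  have hDC : (D : ℂ) = q * conj q + c * conj c * (p.r : ℂ) ^ 2 := by
    rw [hD, HSpace.denSq, Complex.mul_conj, Complex.mul_conj]
    push_cast
    rfl
  have hwD : w * (D : ℂ) = (a * p.z + b) * conj q + a * conj c * (p.r : ℂ) ^ 2 := by
    rw [hw, HSpace.smul_z, div_mul_cancel₀ _ (by exact_mod_cast hD0.ne')]
  have hdet : ‖a * d - b * c‖ = Δ := by rw [hΔ, HSpace.absDet, det_fin_two]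
  have e1 : (a - c * w) * (D : ℂ) = conj q * (a * d - b * c) := by
    linear_combination a * hDC - c * hwD + conj q * a * hq
  have e2 : (a * p.z + b - w * q) * (D : ℂ) =
      -(conj c * (p.r : ℂ) ^ 2 * (a * d - b * c)) := by
    linear_combination (a * p.z + b) * hDC - q * hwD - conj c * (p.r : ℂ) ^ 2 * a * hq
  have hratio : Δ / D = s / p.r := by
    field_simp
    linarith [hsD]
  have hale : ‖a‖ ≤ L * t + t * c0⁻¹ * R := by
    have h : ‖a - c * w‖ = ‖q‖ * (Δ / D) := by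
      have := congrArg norm e1
      rw [norm_mul, norm_mul, Complex.norm_real, RCLike.norm_conj, hdet,
        Real.norm_of_nonneg hD0.le] at this
      field_simp
      linarith
    have h' : ‖a - c * w‖ ≤ L * t := by
      rw [h, hratio, mul_comm L]
      exact mul_le_mul hqle ((div_le_iff₀ hr0).mpr h2) (by positivity) ht0
    calc ‖a‖ = ‖(a - c * w) + c * w‖ := by rw [sub_add_cancel]
      _ ≤ ‖a - c * w‖ + ‖c‖ * ‖w‖ := (norm_add_le _ _).trans (by rw [norm_mul])
      _ ≤ _ := add_le_add h' (mul_le_mul hcle hz' (norm_nonneg _) (by positivity))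
  have hble : ‖b‖ ≤ R * t + t * M + R * (L * t + t * c0⁻¹ * R) := by
    have h : ‖a * p.z + b - w * q‖ = ‖c‖ * p.r * s := by
      have := congrArg norm e2
      rw [norm_mul, norm_neg, norm_mul, norm_mul, norm_pow, Complex.norm_real, Complex.norm_real,
        RCLike.norm_conj, hdet, Real.norm_of_nonneg hD0.le, Real.norm_of_nonneg hr0.le] at this
      refine mul_right_cancel₀ hD0.ne' ?_
      rw [this, mul_assoc _ s D, hsD]
      ring
    have h' : ‖a * p.z + b - w * q‖ ≤ t * M := by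
      rw [h]
      rcases h3 with h3 | h3
      · rw [h3, norm_zero, zero_mul, zero_mul]; positivity
      · exact mul_le_mul hcr h3 hs0.le ht0
    calc ‖b‖ = ‖(a * p.z + b - w * q) + w * q - a * p.z‖ := by ring_nf
      _ ≤ ‖a * p.z + b - w * q‖ + ‖w‖ * ‖q‖ + ‖a‖ * ‖p.z‖ :=
          (norm_sub_le _ _).trans (add_le_add ((norm_add_le _ _).trans (by rw [norm_mul]))
            (by rw [norm_mul]))
      _ ≤ t * M + R * t + (L * t + t * c0⁻¹ * R) * R :=
          add_le_add (add_le_add h' (mul_le_mul hz' hqle (norm_nonneg _) hR))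
            (mul_le_mul hale hz (norm_nonneg _) (by positivity))
      _ = _ := by ring
  set X := 1 + R + L + M with hX
  set u := c0⁻¹ with hu
  have hu0 : 0 < u := inv_pos.mpr hc0
  have hX1 : 1 ≤ X := by linarith
  have hX3 : X ≤ X ^ 3 := le_self_pow₀ hX1 (by norm_num)
  have hX2 : X * X ≤ X ^ 3 := by
    rw [← pow_two]; exact pow_le_pow_right₀ hX1 (by norm_num)
  have split : ∀ {A B : ℝ}, A ≤ X ^ 3 → B ≤ X ^ 3 → (A + u * B) * t ≤ X ^ 3 * (1 + u) * t := by
    intro A B hA hB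
    refine mul_le_mul_of_nonneg_right ?_ ht0
    rw [mul_add, mul_one, mul_comm _ u]
    exact add_le_add hA (mul_le_mul_of_nonneg_left hB hu0.le)
  have hRX : R ≤ X := by linarith
  have hLX : L ≤ X := by linarith
  have hXX : R * R ≤ X ^ 3 := (mul_le_mul hRX hRX hR (by linarith)).trans hX2
  have hA : R + M + R * L ≤ X ^ 3 := by
    refine le_trans ?_ hX2
    nlinarith [mul_le_mul hRX hLX hL (by linarith), mul_nonneg hM hR, mul_nonneg hM hL,
      mul_nonneg hR hR, mul_nonneg hL hL, mul_nonneg hM hM, mul_nonneg hR hL]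
  rw [mul_assoc, ← ht]
  fin_cases j <;> fin_cases k
  · show ‖a‖ ≤ _
    refine le_trans (hale.trans_eq ?_) (split (hLX.trans hX3) (hRX.trans hX3))
    ring
  · show ‖b‖ ≤ _
    refine le_trans (hble.trans_eq ?_) (split hA hXX)
    ring
  · show ‖c‖ ≤ _
    refine le_trans (hcle.trans_eq ?_) (split (A := 0) (B := 1) (zero_le_one.trans (hX1.trans hX3)) (hX1.trans hX3))
    ring
  · show ‖d‖ ≤ _
    refine le_trans (hdle.trans_eq ?_) (split (A := 1) (hX1.trans hX3) (hRX.trans hX3))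
    ring

variable {K : Type*} [Field K] [NumberField K] {ι : Type*}

/-- The projective coordinates `g_jk g_lm / det g`. -/
def prodRatio (g : GL (Fin 2) K) (j k l m : Fin 2) : K :=
  (g : Matrix (Fin 2) (Fin 2) K) j k * (g : Matrix (Fin 2) (Fin 2) K) l m /
    (g : Matrix (Fin 2) (Fin 2) K).det

omit [NumberField K] in
theorem prodRatio_scalar {g h : GL (Fin 2) K} (e : prodRatio g = prodRatio h) :
    ∃ t : K, t ≠ 0 ∧ ∀ j k, (h : Matrix (Fin 2) (Fin 2) K) j k =
      t * (g : Matrix (Fin 2) (Fin 2) K) j k := by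
  have hg := (Matrix.isUnits_det_units g).ne_zero
  have hh := (Matrix.isUnits_det_units h).ne_zero
  obtain ⟨l, m, hlm⟩ : ∃ l m, (g : Matrix (Fin 2) (Fin 2) K) l m ≠ 0 := by
    by_contra hall
    push Not at hall
    exact hg (by rw [det_fin_two, hall 0 0, hall 0 1]; ring)
  have e' : ∀ j k, (g : Matrix (Fin 2) (Fin 2) K) j k * (g : Matrix (Fin 2) (Fin 2) K) l m *
      (h : Matrix (Fin 2) (Fin 2) K).det = (h : Matrix (Fin 2) (Fin 2) K) j k *
        (h : Matrix (Fin 2) (Fin 2) K) l m * (g : Matrix (Fin 2) (Fin 2) K).det := fun j k =>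
    (div_eq_div_iff hg hh).mp (congrFun (congrFun (congrFun (congrFun e j) k) l) m)
  have hhlm : (h : Matrix (Fin 2) (Fin 2) K) l m ≠ 0 := fun h0 => by
    have := e' l m
    rw [h0, mul_zero, zero_mul] at this
    exact (mul_ne_zero (mul_ne_zero hlm hlm) hh) this
  refine ⟨(g : Matrix (Fin 2) (Fin 2) K) l m * (h : Matrix (Fin 2) (Fin 2) K).det /
    ((h : Matrix (Fin 2) (Fin 2) K) l m * (g : Matrix (Fin 2) (Fin 2) K).det),
    div_ne_zero (mul_ne_zero hlm hh) (mul_ne_zero hhlm hg), fun j k => ?_⟩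
  rw [div_mul_eq_mul_div, eq_div_iff (mul_ne_zero hhlm hg)]
  linear_combination -(e' j k)

/-- A Siegel box in the product of upper half spaces. -/
def InBox (c C R : ℝ) (τ : ι → HSpace) : Prop :=
  (∀ i, c ≤ (τ i).r) ∧ (∀ i j, (τ i).r ≤ C * (τ j).r) ∧ ∀ i, ‖(τ i).z‖ ≤ R

variable [Fintype ι]

omit [NumberField K] [Fintype ι] in
theorem isFrame_of_frame (Φ : Frame K ι) : IsFrame Φ.emb where
  bijective := Φ.bij
  isComplex w := by
    obtain ⟨i, hi⟩ := Φ.bij.2 w
    exact hi ▸ Φ.complex i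

theorem le_max_one_of_pow_le {x T : ℝ} {n : ℕ} (hn : n ≠ 0) (hx : 0 ≤ x) (h : x ^ n ≤ T) :
    x ≤ max 1 T := by
  rcases le_total x 1 with h1 | h1
  · exact h1.trans (le_max_left _ _)
  · exact ((le_self_pow₀ h1 hn).trans h).trans (le_max_right _ _)

/-- Finitely many projective classes in a lattice move a Siegel box into itself. -/
theorem finite_returns (Φ : Frame K ι) {d : 𝓞 K} (hd : d ≠ 0) {c C R : ℝ} (hc : 0 < c) :
    (prodRatio '' {g : GL (Fin 2) K | (∀ j k l m, ∃ a : 𝓞 K, prodRatio g j k l m * d = a) ∧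
      ∃ τ : ι → HSpace, InBox c C R τ ∧ InBox c C R fun i => Φ.toInf i g • τ i}).Finite := by
  classical
  have hF := isFrame_of_frame Φ
  set Nd : ℝ := |(Algebra.norm ℚ (d : K) : ℝ)| with hNd
  set n := Fintype.card ι with hn
  have : Nonempty ι := hF.placeEquiv.nonempty
  have hn0 : n ≠ 0 := Fintype.card_ne_zero
  set M : ℝ := max 1 (Nd / (c ^ 4) ^ (n - 1)) / c with hM
  set L : ℝ := max (M / c) (max 1 (max 1 ((C ^ 4) ^ n * Nd))) with hL
  set B : ℝ := (1 + |R| + L + M) ^ 3 * (1 + c⁻¹) * Real.sqrt L with hB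
  have hfin := hF.finite_bounded hd (B * B)
  refine (Set.Finite.pi fun _ => Set.Finite.pi fun _ => Set.Finite.pi fun _ =>
    Set.Finite.pi fun _ => hfin).subset ?_
  rintro _ ⟨g, ⟨hlat, τ, hτ, hτ'⟩, rfl⟩
  simp only [Set.mem_pi, Set.mem_univ, true_implies, Set.mem_ofPred_eq]
  intro j k l m
  refine ⟨hlat j k l m, fun i => ?_⟩
  have hdet := (Matrix.isUnits_det_units g).ne_zero
  have hent : ∀ (i : ι) (j k : Fin 2),
      ((Φ.toInf i g : GL (Fin 2) ℂ) : Matrix (Fin 2) (Fin 2) ℂ) j k =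
        Φ.emb i ((g : Matrix (Fin 2) (Fin 2) K) j k) := fun i j k => rfl
  have habs : ∀ i : ι, HSpace.absDet (Φ.toInf i g) =
      ‖Φ.emb i (g : Matrix (Fin 2) (Fin 2) K).det‖ := fun i => by
    rw [HSpace.absDet, det_fin_two, det_fin_two, map_sub, map_mul, map_mul]
    rfl
  have hM0 : 0 ≤ M := by positivity
  have hL0 : 0 ≤ L := zero_le_one.trans ((le_max_left _ _).trans (le_max_right (M / c) _))
  have key : ∀ i, (τ i).r ≤ L * (Φ.toInf i g • τ i).r ∧ (Φ.toInf i g • τ i).r ≤ L * (τ i).r ∧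
      (((Φ.toInf i g : GL (Fin 2) ℂ) : Matrix (Fin 2) (Fin 2) ℂ) 1 0 = 0 ∨
        (Φ.toInf i g • τ i).r ≤ M) := by
    by_cases hg : (g : Matrix (Fin 2) (Fin 2) K) 1 0 = 0
    · intro i
      set x := prodRatio g 0 0 0 0 with hx
      set y := prodRatio g 1 1 1 1 with hy
      have had : (g : Matrix (Fin 2) (Fin 2) K).det =
          (g : Matrix (Fin 2) (Fin 2) K) 0 0 * (g : Matrix (Fin 2) (Fin 2) K) 1 1 := by
        rw [det_fin_two, hg, mul_zero, sub_zero]
      have ha0 : (g : Matrix (Fin 2) (Fin 2) K) 0 0 ≠ 0 := fun h0 => hdet (by rw [had, h0, zero_mul])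
      have hd0 : (g : Matrix (Fin 2) (Fin 2) K) 1 1 ≠ 0 := fun h0 => hdet (by rw [had, h0, mul_zero])
      have hxy : x * y = 1 := by
        rw [hx, hy, prodRatio, prodRatio, had]; field_simp
      have hxv : ∀ i, (Φ.toInf i g • τ i).r = ‖Φ.emb i x‖ * (τ i).r := fun i => by
        have hn : ‖Φ.emb i ((g : Matrix (Fin 2) (Fin 2) K) 1 1)‖ ≠ 0 := by simpa using hd0
        rw [HSpace.smul_r, habs, HSpace.denSq, hent, hent, hg, map_zero, Complex.normSq_zero,
          zero_mul, zero_add, zero_mul, add_zero, Complex.normSq_eq_norm_sq, hx, prodRatio, had,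
          map_div₀, map_mul, map_mul, norm_div, norm_mul, norm_mul]
        field_simp
      have bound : ∀ (u v : K) (p q : ι → HSpace), u * v = 1 →
          (∃ a : 𝓞 K, v * d = a) → InBox c C R p → InBox c C R q →
          (∀ i, (q i).r = ‖Φ.emb i u‖ * (p i).r) → ∀ i, ‖Φ.emb i u‖ ≤ L := by
        intro u v p q huv hv hp hq hqp i
        have hv0 : v ≠ 0 := right_ne_zero_of_mul_eq_one huv
        have h1 := hF.le_prod_norm_sq hd hv0 hv
        have h2 : ∏ j, ‖Φ.emb j u‖ ^ 2 ≤ Nd := by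
          have h3 : (∏ j, ‖Φ.emb j u‖ ^ 2) * ∏ j, ‖Φ.emb j v‖ ^ 2 = 1 := by
            rw [← Finset.prod_mul_distrib]
            refine Finset.prod_eq_one fun j _ => ?_
            rw [← mul_pow, ← norm_mul, ← map_mul, huv, map_one, norm_one, one_pow]
          have hpos : 0 < Nd := by
            rw [hNd, abs_pos, Rat.cast_ne_zero]
            exact Algebra.norm_ne_zero_iff.mpr (by simpa using hd)
          have h4 := mul_le_mul_of_nonneg_left h1
            (Finset.prod_nonneg fun j (_ : j ∈ Finset.univ) => sq_nonneg ‖Φ.emb j u‖)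
          rw [h3, ← hNd, mul_inv_le_iff₀ hpos, one_mul] at h4
          exact h4
        have hcompare : ∀ j, ‖Φ.emb i u‖ ≤ C ^ 2 * ‖Φ.emb j u‖ := by
          intro j
          have hC : 0 ≤ C := by
            nlinarith [hp.2.1 i i, (p i).r_pos]
          refine le_of_mul_le_mul_right ?_ (p i).r_pos
          calc ‖Φ.emb i u‖ * (p i).r = (q i).r := (hqp i).symm
            _ ≤ C * (q j).r := hq.2.1 i j
            _ = C * (‖Φ.emb j u‖ * (p j).r) := by rw [hqp j]
            _ ≤ C * (‖Φ.emb j u‖ * (C * (p i).r)) := by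
                refine mul_le_mul_of_nonneg_left ?_ hC
                exact mul_le_mul_of_nonneg_left (hp.2.1 j i) (norm_nonneg _)
            _ = C ^ 2 * ‖Φ.emb j u‖ * (p i).r := by ring
        have h5 : (‖Φ.emb i u‖ ^ 2) ^ n ≤ (C ^ 4) ^ n * Nd := by
          calc (‖Φ.emb i u‖ ^ 2) ^ n = ∏ _j : ι, ‖Φ.emb i u‖ ^ 2 := by
                rw [Finset.prod_const, Finset.card_univ]
            _ ≤ ∏ j, C ^ 4 * ‖Φ.emb j u‖ ^ 2 := by
                refine Finset.prod_le_prod (fun _ _ => sq_nonneg _) fun j _ => ?_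
                calc ‖Φ.emb i u‖ ^ 2 ≤ (C ^ 2 * ‖Φ.emb j u‖) ^ 2 :=
                      pow_le_pow_left₀ (norm_nonneg _) (hcompare j) 2
                  _ = _ := by ring
            _ = (C ^ 4) ^ n * ∏ j, ‖Φ.emb j u‖ ^ 2 := by
                rw [Finset.prod_mul_distrib, Finset.prod_const, Finset.card_univ]
            _ ≤ _ := mul_le_mul_of_nonneg_left h2 (by positivity)
        have h6 := le_max_one_of_pow_le hn0 (sq_nonneg _) h5
        calc ‖Φ.emb i u‖ ≤ max 1 (max 1 ((C ^ 4) ^ n * Nd)) :=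
              le_max_one_of_pow_le two_ne_zero (norm_nonneg _) h6
          _ ≤ L := le_max_right _ _
      refine ⟨?_, ?_, Or.inl ?_⟩
      · have h := bound y x (fun j => Φ.toInf j g • τ j) τ (by rw [mul_comm]; exact hxy)
          (hlat 0 0 0 0) hτ' hτ (fun j => by
            rw [hxv j, ← mul_assoc, ← norm_mul, ← map_mul, mul_comm y, hxy, map_one, norm_one,
              one_mul]) i
        calc (τ i).r = ‖Φ.emb i y‖ * (Φ.toInf i g • τ i).r := by
              rw [hxv i, ← mul_assoc, ← norm_mul, ← map_mul, mul_comm y, hxy, map_one, norm_one,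
                one_mul]
          _ ≤ _ := mul_le_mul_of_nonneg_right h (HSpace.r_pos _).le
      · rw [hxv i]
        exact mul_le_mul_of_nonneg_right
          (bound x y τ (fun j => Φ.toInf j g • τ j) hxy (hlat 1 1 1 1) hτ hτ' hxv i)
          (HSpace.r_pos _).le
      · rw [hent, hg, map_zero]
    · intro i
      set x := prodRatio g 1 0 1 0 with hx
      have hx0 : x ≠ 0 := div_ne_zero (mul_ne_zero hg hg) hdet
      set P : ι → ℝ := fun j => (τ j).r * (Φ.toInf j g • τ j).r with hP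
      have hPx : ∀ j, P j * ‖Φ.emb j x‖ ≤ 1 := by
        intro j
        have hD := HSpace.denSq_pos (Φ.toInf j g) (τ j)
        have hΔ : 0 < ‖Φ.emb j (g : Matrix (Fin 2) (Fin 2) K).det‖ := by simpa using hdet
        have hle : ‖Φ.emb j ((g : Matrix (Fin 2) (Fin 2) K) 1 0)‖ ^ 2 * (τ j).r ^ 2 ≤
            HSpace.denSq (Φ.toInf j g) (τ j) := by
          rw [HSpace.denSq, hent j 1 0, Complex.normSq_eq_norm_sq, Complex.normSq_eq_norm_sq]
          exact le_add_of_nonneg_left (sq_nonneg _)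
        simp only [hP]
        rw [HSpace.smul_r, habs, hx, prodRatio, map_div₀, map_mul, norm_div, norm_mul]
        field_simp
        linarith
      have hP0 : ∀ j, c ^ 4 ≤ P j ^ 2 := fun j => by
        have : c * c ≤ P j := mul_le_mul (hτ.1 j) (hτ'.1 j) hc.le (τ j).r_pos.le
        calc c ^ 4 = (c * c) ^ 2 := by ring
          _ ≤ P j ^ 2 := pow_le_pow_left₀ (by positivity) this 2
      have h1 := hF.le_prod_norm_sq hd hx0 (hlat 1 0 1 0)
      have h2 : ∏ j, P j ^ 2 ≤ Nd := by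
        have h3 : (∏ j, P j ^ 2) * ∏ j, ‖Φ.emb j x‖ ^ 2 ≤ 1 := by
          rw [← Finset.prod_mul_distrib]
          refine Finset.prod_le_one (fun j _ => by positivity) fun j _ => ?_
          rw [← mul_pow]
          exact pow_le_one₀ (mul_nonneg (mul_nonneg (τ j).r_pos.le (HSpace.r_pos _).le)
            (norm_nonneg _)) (hPx j)
        have hpos : 0 < Nd := by
          rw [hNd, abs_pos, Rat.cast_ne_zero]
          exact Algebra.norm_ne_zero_iff.mpr (by simpa using hd)
        have h4 := (mul_le_mul_of_nonneg_left h1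
          (Finset.prod_nonneg fun j (_ : j ∈ Finset.univ) => sq_nonneg (P j))).trans h3
        rwa [← hNd, mul_inv_le_iff₀ hpos, one_mul] at h4
      have h5 : P i ^ 2 ≤ Nd / (c ^ 4) ^ (n - 1) := by
        rw [le_div_iff₀ (by positivity)]
        refine le_trans ?_ h2
        rw [← Finset.mul_prod_erase _ _ (Finset.mem_univ i)]
        refine mul_le_mul_of_nonneg_left ?_ (sq_nonneg _)
        rw [hn, ← Finset.card_univ, ← Finset.card_erase_of_mem (Finset.mem_univ i),
          ← Finset.prod_const]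
        exact Finset.prod_le_prod (fun _ _ => by positivity) fun j _ => hP0 j
      have hPi : P i ≤ max 1 (Nd / (c ^ 4) ^ (n - 1)) :=
        le_max_one_of_pow_le two_ne_zero
          (mul_nonneg (τ i).r_pos.le (HSpace.r_pos _).le) h5
      have hr : (τ i).r ≤ M := by
        rw [hM, le_div_iff₀ hc]
        exact (mul_le_mul_of_nonneg_left (hτ'.1 i) (τ i).r_pos.le).trans hPi
      have hr' : (Φ.toInf i g • τ i).r ≤ M := by
        rw [hM, le_div_iff₀ hc, mul_comm]
        exact (mul_le_mul_of_nonneg_right (hτ.1 i) (HSpace.r_pos _).le).trans hPi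
      have hMc : ∀ {s t : ℝ}, s ≤ M → c ≤ t → s ≤ L * t := fun {s t} hs ht =>
        calc s ≤ M / c * c := by rw [div_mul_cancel₀ _ hc.ne']; exact hs
          _ ≤ L * t := mul_le_mul (le_max_left _ _) ht hc.le hL0
      exact ⟨hMc hr (hτ'.1 i), hMc hr' (hτ.1 i), Or.inr hr'⟩
  obtain ⟨k1, k2, k3⟩ := key i
  have he := entries_le (Φ.toInf i g) (τ i) hc (abs_nonneg R) hL0 hM0 (hτ.1 i)
    ((hτ.2.2 i).trans (le_abs_self R)) ((hτ'.2.2 i).trans (le_abs_self R)) k1 k2 k3
  have hΔ : 0 < ‖Φ.emb i (g : Matrix (Fin 2) (Fin 2) K).det‖ := by simpa using hdet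
  have e1 := he j k
  have e2 := he l m
  rw [hent, habs, ← hB] at e1 e2
  rw [prodRatio, map_div₀, map_mul, norm_div, norm_mul, div_le_iff₀ hΔ]
  calc _ ≤ (B * Real.sqrt ‖Φ.emb i (g : Matrix (Fin 2) (Fin 2) K).det‖) *
        (B * Real.sqrt ‖Φ.emb i (g : Matrix (Fin 2) (Fin 2) K).det‖) :=
        mul_le_mul e1 e2 (norm_nonneg _) (le_trans (norm_nonneg _) e1)
    _ = B * B * ‖Φ.emb i (g : Matrix (Fin 2) (Fin 2) K).det‖ := by
        rw [mul_mul_mul_comm, Real.mul_self_sqrt hΔ.le]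

end Fermat.Agent.LT.Reduction
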