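/-
Siegel covering and bounded returns on the space of spherical automorphic functions.
-/
import Fermat.Agent.LT.Reduction.Classes
import Fermat.Agent.LT.Reduction.Returns
import Fermat.Agent.LT.Adelic.Approx

set_option autoImplicit false

noncomputable section

open NumberField Matrix IsDedekindDomain
open scoped MatrixGroups

namespace Fermat.Agent.LT.Reduction

open Fermat.Agent.LT.Adelic

variable {K : Type*} [Field K] [NumberField K]

local notation "Af" => FiniteAdeleRing (𝓞 K) K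

/-- Integral invertible matrices land in `GL₂(Ô)`. -/
theorem toGf_map_mem (γ : GL (Fin 2) (𝓞 K)) :
    toGf K (GeneralLinearGroup.map (algebraMap (𝓞 K) K) γ) ∈ principalLevel K (1 : 𝓞 K) := by
  rw [mem_principalLevel_one, ← map_inv, ← map_inv]
  constructor <;> rw [matMemMul_one] <;> intro i j
  · show algebraMap K Af (algebraMap (𝓞 K) K ((γ : Matrix (Fin 2) (Fin 2) (𝓞 K)) i j)) ∈ _
    rw [← IsScalarTower.algebraMap_apply]
    exact algebraMap_mem_intAdele _
  · show algebraMap K Af (algebraMap (𝓞 K) K ((↑γ⁻¹ : Matrix (Fin 2) (Fin 2) (𝓞 K)) i j)) ∈ _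
    rw [← IsScalarTower.algebraMap_apply]
    exact algebraMap_mem_intAdele _

/-- `GL₂(Ô)` has finite orbits on the finite coordinate. -/
theorem finite_orbit_principalLevel {U : Subgroup (GfK K)} (hU : IsLevel U) (y : Yf U) :
    ((fun u : GfK K => u • y) '' (principalLevel K (1 : 𝓞 K) : Set (GfK K))).Finite := by
  obtain ⟨n, hn, hnU, -⟩ := hU
  induction y using QuotientGroup.induction_on with
  | _ g =>
    obtain ⟨m, hm, hconj⟩ := exists_conj_le g⁻¹ hn
    let ψ : GfK K ⧸ principalLevel K m → Yf U := Quotient.lift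
      (fun u => u • (g : Yf U)) fun a b hab => by
        refine QuotientGroup.eq.mpr (le_levelZ U (hnU ?_))
        have h := hconj _ (QuotientGroup.leftRel_apply.mp hab)
        rw [inv_inv] at h
        simp only [smul_eq_mul]
        convert! h using 1
        group
    refine ((finite_image_principalLevel (K := K) hm).image ψ).subset ?_
    rintro _ ⟨u, hu, rfl⟩
    exact ⟨_, ⟨u, hu, rfl⟩, rfl⟩

/-- Finitely many orbits of `GL₂(K)` on the finite coordinate. -/
theorem exists_finite_orbit_reps {U : Subgroup (GfK K)} (hU : IsLevel U) :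
    ∃ Y1 : Set (Yf U), Y1.Finite ∧ ∀ y : Yf U, ∃ γ : GL (Fin 2) K, toGf K γ • y ∈ Y1 := by
  obtain ⟨T, hT, hcov⟩ := exists_finite_reps (R := 𝓞 K) (K := K)
  refine ⟨⋃ t ∈ T, (t • ·) ''
    ((fun u : GfK K => u • ((1 : GfK K) : Yf U)) '' (principalLevel K (1 : 𝓞 K) : Set (GfK K))),
    hT.biUnion fun t _ => (finite_orbit_principalLevel hU _).image _, fun y => ?_⟩
  induction y using QuotientGroup.induction_on with
  | _ g =>
    obtain ⟨γ, t, ht, u, hu, rfl⟩ := hcov g
    refine ⟨γ⁻¹, Set.mem_iUnion₂.mpr ⟨t, ht, _, ⟨u, hu, rfl⟩, ?_⟩⟩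
    show ((t * (u * 1) : GfK K) : Yf U) = ((toGf K γ⁻¹ * (toGfR γ * t * u) : GfK K) : Yf U)
    rw [mul_one, map_inv, show toGf K γ = toGfR γ from rfl, mul_assoc (toGfR γ), inv_mul_cancel_left]

/-- The scalar matrix. -/
def scalarGL (t : Kˣ) : GL (Fin 2) K :=
  Units.map (Matrix.scalar (Fin 2) : K →+* _).toMonoidHom t

variable {ι : Type*} [Fintype ι] (Φ : Frame K ι) {U : Subgroup (GfK K)}

omit [Fintype ι] in
/-- Scalar matrices act trivially on the space. -/
theorem scalarGL_smul (t : Kˣ) (x : Space Φ U) : scalarGL t • x = x := by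
  refine Prod.ext (funext fun i => ?_) ?_
  · show Φ.toInf i (scalarGL t) • x.pt i = x.pt i
    have h : ∀ j k : Fin 2, ((Φ.toInf i (scalarGL t) : GL (Fin 2) ℂ) :
        Matrix (Fin 2) (Fin 2) ℂ) j k = if j = k then Φ.emb i (t : K) else 0 := fun j k => by
      show Φ.emb i (Matrix.scalar (Fin 2) (t : K) j k) = _
      rw [Matrix.scalar_apply, Matrix.diagonal_apply]
      split <;> simp
    have hd : HSpace.denSq (Φ.toInf i (scalarGL t)) (x.pt i) = ‖Φ.emb i (t : K)‖ ^ 2 := by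
      simp [HSpace.denSq, h, Complex.normSq_eq_norm_sq]
    have ha : HSpace.absDet (Φ.toInf i (scalarGL t)) = ‖Φ.emb i (t : K)‖ ^ 2 := by
      simp [HSpace.absDet, det_fin_two, h, sq]
    have h0 : ‖Φ.emb i (t : K)‖ ≠ 0 := by simp
    ext
    · rw [HSpace.smul_z, hd, h, h, h, h]
      have h2 : Φ.emb i (t : K) * (starRingEnd ℂ) (Φ.emb i (t : K)) =
          ((‖Φ.emb i (t : K)‖ ^ 2 : ℝ) : ℂ) := by
        rw [Complex.mul_conj, Complex.normSq_eq_norm_sq]
      rw [← h2]
      field_simp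
      simp [mul_comm, mul_assoc]
    · rw [HSpace.smul_r, hd, ha]
      field_simp
  · show toGf K (scalarGL t) • x.fin = x.fin
    have hc : toGf K (scalarGL t) ∈ centerGf (𝓞 K) K := by
      refine ⟨Units.map (algebraMap K Af).toMonoidHom t, Units.ext (Matrix.ext fun j k => ?_)⟩
      show Matrix.scalar (Fin 2) (algebraMap K Af (t : K)) j k =
        algebraMap K Af (Matrix.scalar (Fin 2) (t : K) j k)
      rw [Matrix.scalar_apply, Matrix.scalar_apply, Matrix.diagonal_apply, Matrix.diagonal_apply]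
      split <;> simp
    generalize x.fin = y
    induction y using QuotientGroup.induction_on with
    | _ g =>
      refine QuotientGroup.eq.mpr ?_
      rw [show (fun x => toGf K (scalarGL t) • x) g = toGf K (scalarGL t) * g from rfl,
        centerGf_comm hc g, ← inv_mem_iff, _root_.mul_inv_rev, inv_inv, ← mul_assoc, inv_mul_cancel,
        one_mul]
      exact (le_sup_right : centerGf (𝓞 K) K ≤ levelZ U) hc

/-- Covering in the archimedean coordinates. -/
theorem exists_archimedean_cover :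
    ∃ (S : Finset (SL(2, K))) (c C R : ℝ), 0 < c ∧ 0 < C ∧ ∀ τ : ι → HSpace,
      ∃ g ∈ S, ∃ (γ : SL(2, 𝓞 K)) (β : GL (Fin 2) (𝓞 K)), InBox c C R fun i =>
        Φ.toInf i (GeneralLinearGroup.map (algebraMap (𝓞 K) K) β *
          Matrix.SpecialLinearGroup.toGL (g * γ.map (algebraMap (𝓞 K) K))) • τ i := by
  classical
  have hF := isFrame_of_frame Φ
  obtain ⟨S, P, hS⟩ := hF.exists_height
  obtain ⟨c, C, R, hc, hC, hnorm⟩ :=
    hF.exists_normalize (P0 := (max P 1)⁻¹) (inv_pos.mpr (lt_max_of_lt_right one_pos))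
  refine ⟨S, c, C, R, hc, hC, fun τ => ?_⟩
  obtain ⟨g, hg, γ, hP⟩ := hS (fun i => (τ i).z) (fun i => (τ i).r) fun i => (τ i).r_pos
  refine ⟨g, hg, γ, ?_⟩
  set h := g * γ.map (algebraMap (𝓞 K) K) with hh
  set σ : ι → HSpace := fun i => Φ.toInf i (Matrix.SpecialLinearGroup.toGL h) • τ i with hσ
  have hne : h.1 1 0 ≠ 0 ∨ h.1 1 1 ≠ 0 := by
    by_contra hcon
    push Not at hcon
    have := h.det_coe
    rw [det_fin_two, hcon.1, hcon.2] at this
    simp at this
  have hr : ∀ i, (σ i).r =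
      (hForm Φ.emb (fun i => (τ i).z) (fun i => (τ i).r) (h.1 1 0) (h.1 1 1) i)⁻¹ := by
    intro i
    have hdet : HSpace.absDet (Φ.toInf i (Matrix.SpecialLinearGroup.toGL h)) = 1 := by
      have : Φ.emb i h.1.det = ((Φ.toInf i (Matrix.SpecialLinearGroup.toGL h) :
          GL (Fin 2) ℂ) : Matrix (Fin 2) (Fin 2) ℂ).det := RingHom.map_det _ _
      rw [HSpace.absDet, ← this, h.det_coe, map_one, norm_one]
    rw [hσ, HSpace.smul_r, hdet, hForm, inv_div, HSpace.denSq,
      Complex.normSq_eq_norm_sq, Complex.normSq_eq_norm_sq, one_mul]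
    rfl
  have hprod : (max P 1)⁻¹ ≤ ∏ i, (σ i).r := by
    simp only [hr, Finset.prod_inv_distrib]
    exact inv_anti₀ (Finset.prod_pos fun i _ =>
      hForm_pos Φ.emb _ _ (fun i => (τ i).r_pos) hne i) (hP.trans (le_max_left _ _))
  obtain ⟨u, a, h1, h2, h3⟩ :=
    hnorm (fun i => (σ i).z) (fun i => (σ i).r) (fun i => (σ i).r_pos) hprod
  let β : GL (Fin 2) (𝓞 K) := diag2 u 1 * unipotent ((u⁻¹ : (𝓞 K)ˣ) * a)
  refine ⟨β, ?_⟩
  have hβ : ∀ i, Φ.toInf i (GeneralLinearGroup.map (algebraMap (𝓞 K) K) β) =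
      (⟨!![Φ.emb i (u : K), Φ.emb i (a : K); 0, 1],
        !![Φ.emb i ((u⁻¹ : (𝓞 K)ˣ) : K), -(Φ.emb i ((u⁻¹ : (𝓞 K)ˣ) : K) * Φ.emb i (a : K)); 0, 1],
        by
          have e : Φ.emb i (u : K) * Φ.emb i ((u⁻¹ : (𝓞 K)ˣ) : K) = 1 := by
            rw [← map_mul, ← map_mul, Units.mul_inv, map_one, map_one]
          ext p q; fin_cases p <;> fin_cases q <;>
            simp [Matrix.mul_apply, Fin.sum_univ_two],
        by
          have e : Φ.emb i ((u⁻¹ : (𝓞 K)ˣ) : K) * Φ.emb i (u : K) = 1 := by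
            rw [← map_mul, ← map_mul, Units.inv_mul, map_one, map_one]
          ext p q; fin_cases p <;> fin_cases q <;>
            simp [Matrix.mul_apply, Fin.sum_univ_two]⟩ : GL (Fin 2) ℂ) := by
    intro i
    refine Units.ext (Matrix.ext fun p q => ?_)
    show Φ.emb i (algebraMap (𝓞 K) K ((β : Matrix (Fin 2) (Fin 2) (𝓞 K)) p q)) = _
    simp only [β, Units.val_mul, coe_diag2, coe_unipotent]
    fin_cases p <;> fin_cases q <;> simp [Matrix.mul_apply, Fin.sum_univ_two]
  have key : ∀ i, (Φ.toInf i (GeneralLinearGroup.map (algebraMap (𝓞 K) K) β *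
      Matrix.SpecialLinearGroup.toGL h) • τ i).r = ‖Φ.emb i (u : K)‖ * (σ i).r ∧
      (Φ.toInf i (GeneralLinearGroup.map (algebraMap (𝓞 K) K) β *
      Matrix.SpecialLinearGroup.toGL h) • τ i).z = Φ.emb i (u : K) * (σ i).z + Φ.emb i (a : K) := by
    intro i
    rw [map_mul, mul_smul, hβ]
    constructor
    · simp [HSpace.smul_r, HSpace.absDet, HSpace.denSq, det_fin_two, hσ]
    · simp [HSpace.smul_z, HSpace.denSq, hσ]
  exact ⟨fun i => (key i).1 ▸ h1 i, fun i j => by
    simp only [(key i).1, (key j).1]; exact h2 i j, fun i => (key i).2 ▸ h3 i⟩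

/-- Siegel covering: every orbit meets a fixed box over finitely many finite coordinates. -/
theorem exists_siegel (hU : IsLevel U) :
    ∃ (Y0 : Set (Yf U)) (c C R : ℝ), Y0.Finite ∧ 0 < c ∧ 0 < C ∧
      ∀ x : Space Φ U, ∃ γ : GL (Fin 2) K,
        (γ • x).fin ∈ Y0 ∧ InBox c C R (γ • x).pt := by
  classical
  obtain ⟨Y1, hY1, hY⟩ := exists_finite_orbit_reps hU
  obtain ⟨S, c, C, R, hc, hC, hS⟩ := exists_archimedean_cover Φ
  let P : Set (Yf U) → Set (Yf U) := fun Y =>
    ⋃ y ∈ Y, (fun u : GfK K => u • y) '' (principalLevel K (1 : 𝓞 K) : Set (GfK K))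
  have hP : ∀ Y : Set (Yf U), Y.Finite → (P Y).Finite := fun Y hYf =>
    hYf.biUnion fun y _ => finite_orbit_principalLevel hU y
  refine ⟨P (⋃ g ∈ S, (fun y => toGf K (Matrix.SpecialLinearGroup.toGL g) • y) '' P Y1), c, C, R,
    hP _ (Set.Finite.biUnion S.finite_toSet fun g _ => (hP _ hY1).image _), hc, hC, fun x => ?_⟩
  obtain ⟨γ1, hγ1⟩ := hY x.fin
  obtain ⟨g, hg, γ, β, hbox⟩ := hS (γ1 • x).pt
  refine ⟨GeneralLinearGroup.map (algebraMap (𝓞 K) K) β *
    Matrix.SpecialLinearGroup.toGL (g * γ.map (algebraMap (𝓞 K) K)) * γ1, ?_, ?_⟩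
  · show toGf K _ • x.fin ∈ _
    rw [map_mul, map_mul, map_mul, map_mul, mul_smul, mul_smul, mul_smul]
    refine Set.mem_iUnion₂.mpr ⟨_, Set.mem_iUnion₂.mpr ⟨g, hg, Set.mem_image_of_mem _
      (Set.mem_iUnion₂.mpr ⟨_, hγ1, _, ?_, rfl⟩)⟩, _, toGf_map_mem β, rfl⟩
    have : Matrix.SpecialLinearGroup.toGL (γ.map (algebraMap (𝓞 K) K)) =
        GeneralLinearGroup.map (algebraMap (𝓞 K) K) (Matrix.SpecialLinearGroup.toGL γ) :=
      Units.ext rfl
    rw [this]
    exact toGf_map_mem _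
  · rw [mul_smul]
    exact hbox

/-- The stabiliser of a finite coordinate has its projective coordinates in one lattice. -/
theorem exists_lattice_stabilizer (hU : IsLevel U) (y : Yf U) :
    ∃ d : 𝓞 K, d ≠ 0 ∧ ∀ G : GL (Fin 2) K, toGf K G • y = y →
      ∀ j k l m, ∃ a : 𝓞 K, prodRatio G j k l m * d = a := by
  obtain ⟨n, hn, -, hU1⟩ := hU
  induction y using QuotientGroup.induction_on with
  | _ g0 =>
    obtain ⟨d, hd, hgd⟩ := exists_den_mat (g0 : Matrix (Fin 2) (Fin 2) Af)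
    obtain ⟨e, he, hge⟩ := exists_den_mat ((g0⁻¹ : GfK K) : Matrix (Fin 2) (Fin 2) Af)
    refine ⟨(d * e) * (d * e), mul_ne_zero (mul_ne_zero hd he) (mul_ne_zero hd he),
      fun G hG j k l m => ?_⟩
    obtain ⟨u, hu, z, ⟨t, rfl⟩, huz⟩ := mem_levelZ.mp (QuotientGroup.eq.mp hG.symm)
    obtain ⟨hu1, hu2⟩ := mem_principalLevel_one.mp (hU1 hu)
    rw [matMemMul_one] at hu1 hu2
    set M : Matrix (Fin 2) (Fin 2) Af := (g0 : Matrix (Fin 2) (Fin 2) Af) *
      (u : Matrix (Fin 2) (Fin 2) Af) * ((g0⁻¹ : GfK K) : Matrix (Fin 2) (Fin 2) Af) with hM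
    have hGM : ((toGf K G : GfK K) : Matrix (Fin 2) (Fin 2) Af) = (t : Af) • M := by
      have h1 : toGf K G = g0 * u * g0⁻¹ * scalarHom (𝓞 K) K t := by
        rw [mul_assoc, ← centerGf_comm ⟨t, rfl⟩ g0⁻¹, ← mul_assoc, mul_assoc g0 u, huz]
        show toGf K G = g0 * (g0⁻¹ * (toGf K G * g0)) * g0⁻¹
        rw [mul_inv_cancel_left, mul_inv_cancel_right]
      rw [h1, Units.val_mul, Units.val_mul, Units.val_mul, ← hM]
      show M * Matrix.scalar (Fin 2) (t : Af) = _
      rw [Matrix.scalar_apply, ← Matrix.smul_one_eq_diagonal, mul_smul_comm, mul_one]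
    have hden : ∀ p q, algebraMap (𝓞 K) Af (d * e) * M p q ∈ intAdele (𝓞 K) K := by
      intro p q
      rw [hM, Matrix.mul_apply, Finset.mul_sum]
      refine sum_mem fun r _ => ?_
      rw [Matrix.mul_apply, Finset.sum_mul, Finset.mul_sum]
      refine sum_mem fun s _ => ?_
      convert! mul_mem (mul_mem (hgd p s) (hu1 s r)) (hge r q) using 1
      rw [map_mul]
      ac_rfl
    have hMdet : M.det = (u : Matrix (Fin 2) (Fin 2) Af).det := by
      rw [hM, det_mul, det_mul, mul_right_comm, ← det_mul, Units.mul_inv, det_one, one_mul]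
    have hdu : (u : Matrix (Fin 2) (Fin 2) Af).det *
        ((u⁻¹ : GfK K) : Matrix (Fin 2) (Fin 2) Af).det = 1 := by
      rw [← det_mul, Units.mul_inv, det_one]
    have hdu2 : ((u⁻¹ : GfK K) : Matrix (Fin 2) (Fin 2) Af).det ∈ intAdele (𝓞 K) K := by
      rw [det_fin_two]
      exact sub_mem (mul_mem (hu2 0 0) (hu2 1 1)) (mul_mem (hu2 0 1) (hu2 1 0))
    have hent : ∀ p q, algebraMap K Af ((G : Matrix (Fin 2) (Fin 2) K) p q) = (t : Af) * M p q :=
      fun p q => by
        show ((toGf K G : GfK K) : Matrix (Fin 2) (Fin 2) Af) p q = _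
        rw [hGM]; rfl
    have hdetG : algebraMap K Af (G : Matrix (Fin 2) (Fin 2) K).det = (t : Af) * t * M.det := by
      rw [det_fin_two, det_fin_two, map_sub, map_mul, map_mul, hent, hent, hent, hent]
      ring
    have hG0 := (Matrix.isUnits_det_units G).ne_zero
    have hval : algebraMap K Af (prodRatio G j k l m) =
        M j k * M l m * ((u⁻¹ : GfK K) : Matrix (Fin 2) (Fin 2) Af).det := by
      have h1 : algebraMap K Af (prodRatio G j k l m) *
          algebraMap K Af (G : Matrix (Fin 2) (Fin 2) K).det =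
          algebraMap K Af ((G : Matrix (Fin 2) (Fin 2) K) j k) *
            algebraMap K Af ((G : Matrix (Fin 2) (Fin 2) K) l m) := by
        rw [← map_mul, ← map_mul, prodRatio, div_mul_cancel₀ _ hG0]
      refine (IsUnit.mul_left_inj (RingHom.isUnit_map (algebraMap K Af) (isUnit_iff_ne_zero.mpr hG0))).mp ?_
      rw [h1, hdetG, hent, hent, hMdet]
      linear_combination -((t : Af) * t * M j k * M l m) * hdu
    have hint : algebraMap K Af (prodRatio G j k l m * algebraMap (𝓞 K) K ((d * e) * (d * e))) ∈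
        intAdele (𝓞 K) K := by
      rw [map_mul, hval, ← IsScalarTower.algebraMap_apply]
      convert! mul_mem (mul_mem (hden j k) (hden l m)) hdu2 using 1
      rw [map_mul (algebraMap (𝓞 K) Af) (d * e) (d * e)]
      ring
    obtain ⟨a, ha⟩ := HeightOneSpectrum.mem_integers_of_valuation_le_one K _
      (fun v => (valued_algebraMap _ v).symm.trans_le (hint v))
    exact ⟨a, ha.symm⟩

/-- Bounded returns: finitely many matrices up to scalars move a box over `y` into itself. -/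
theorem exists_returns (hU : IsLevel U) (y : Yf U) {c C R : ℝ} (hc : 0 < c) :
    ∃ F : Finset (GL (Fin 2) K), ∀ (g : GL (Fin 2) K) (x : Space Φ U),
      x.fin = y → InBox c C R x.pt → (g • x).fin = y → InBox c C R (g • x).pt →
        ∃ h ∈ F, ∃ t : Kˣ, g = h * scalarGL t := by
  classical
  obtain ⟨d, hd, hlat⟩ := exists_lattice_stabilizer hU y
  have hfin := finite_returns Φ hd (C := C) (R := R) hc
  choose rep hrep hrepv using fun v : hfin.toFinset => hfin.mem_toFinset.mp v.2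
  refine ⟨Finset.univ.image rep, fun g x hx hxb hgx hgxb => ?_⟩
  have hmem : prodRatio g ∈ hfin.toFinset := by
    rw [hfin.mem_toFinset]
    refine Set.mem_image_of_mem _ ⟨hlat g ?_, x.pt, hxb, hgxb⟩
    have : toGf K g • x.fin = y := hgx
    rwa [hx] at this
  refine ⟨rep ⟨_, hmem⟩, Finset.mem_image_of_mem _ (Finset.mem_univ _), ?_⟩
  obtain ⟨t, ht, hgt⟩ := prodRatio_scalar (hrepv ⟨_, hmem⟩)
  refine ⟨Units.mk0 t ht, Units.ext (Matrix.ext fun p q => ?_)⟩
  rw [hgt p q, Units.val_mul]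
  show _ = ((rep ⟨_, hmem⟩ : Matrix (Fin 2) (Fin 2) K) * Matrix.scalar (Fin 2) t) p q
  rw [Matrix.scalar_apply, Matrix.mul_diagonal, mul_comm]

/-- Uniform bound: all matrices sending one point into a box over `y` differ by finitely many. -/
theorem exists_returns_pair (hU : IsLevel U) (y : Yf U) {c C R : ℝ} (hc : 0 < c) :
    ∃ F : Finset (GL (Fin 2) K), ∀ (g1 g2 : GL (Fin 2) K) (p : Space Φ U),
      (g1 • p).fin = y → InBox c C R (g1 • p).pt → (g2 • p).fin = y → InBox c C R (g2 • p).pt →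
        ∃ h ∈ F, ∃ t : Kˣ, g2 = h * scalarGL t * g1 := by
  obtain ⟨F, hF⟩ := exists_returns Φ hU y (C := C) (R := R) hc
  refine ⟨F, fun g1 g2 p a1 a2 a3 a4 => ?_⟩
  have he : (g2 * g1⁻¹) • g1 • p = g2 • p := by rw [mul_smul, inv_smul_smul]
  obtain ⟨h, hh, t, ht⟩ := hF (g2 * g1⁻¹) (g1 • p) a1 a2 (by rw [he]; exact a3) (by rw [he]; exact a4)
  exact ⟨h, hh, t, mul_inv_eq_iff_eq_mul.mp ht⟩

end Fermat.Agent.LT.Reduction
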